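/-
MAZUR project, node (F1), file `MZ/F1/Prim.lean` (helper7, prefix `mzf1p_`), Mathlib only.

THE SOCLE FILTRATION of a finite subgroup `W` of an abelian group `M` with respect to a set `Ops`
of pairwise commuting endomorphisms of `M`, each locally nilpotent on `W`:

  `W_0 = 0`,  `W_{i+1} = {x ∈ W | ∀ f ∈ Ops, f x ∈ W_i}`   (`= W[𝔓^i]` for `𝔓 = (Ops)`).

* `mzf1p_fil Ops W i`, `mzf1p_mem_fil_succ`;
* `mzf1p_fil_le`, `mzf1p_fil_mono`, `mzf1p_fil_mono'`;
* `mzf1p_fil_ops` : every `f ∈ Ops` maps `W_{i+1}` into `W_i`;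
* `mzf1p_fil_stable` : every endomorphism `g` of `M` stabilising `W` and commuting with `Ops`
  ON `W` stabilises every `W_i` (Galois and Hecke stability of the filtration);
* `mzf1p_fil_exhaust` : `W_n = W` for some `n` (`W` finite, `Ops` commuting ON `W`, locally
  nilpotent on `W`).

With `Ops = {r, T_ℓ - (1 + ℓ) : ℓ good}` the graded pieces are killed by the Eisenstein maximal
ideal `𝔓 = (I, r)`.
-/
import Mathlib

set_option autoImplicit false

namespace Fermat.Agent.MZ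

section Prim

variable {M : Type*} [AddCommGroup M]

/-- the socle filtration of `W` with respect to the operators `Ops` -/
def mzf1p_fil (Ops : Set (AddMonoid.End M)) (W : AddSubgroup M) : ℕ → AddSubgroup M
  | 0 => ⊥
  | (i + 1) => W ⊓ ⨅ f ∈ Ops, (mzf1p_fil Ops W i).comap (f : M →+ M)

variable (Ops : Set (AddMonoid.End M)) (W : AddSubgroup M)

@[simp]
theorem mzf1p_fil_zero : mzf1p_fil Ops W 0 = ⊥ := rfl

theorem mzf1p_fil_succ (i : ℕ) :
    mzf1p_fil Ops W (i + 1) = W ⊓ ⨅ f ∈ Ops, (mzf1p_fil Ops W i).comap (f : M →+ M) := rfl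

theorem mzf1p_mem_fil_succ {i : ℕ} {x : M} :
    x ∈ mzf1p_fil Ops W (i + 1) ↔ x ∈ W ∧ ∀ f ∈ Ops, f x ∈ mzf1p_fil Ops W i := by
  rw [mzf1p_fil_succ, AddSubgroup.mem_inf]
  simp only [AddSubgroup.mem_iInf]
  exact ⟨fun h => ⟨h.1, fun f hf => h.2 f hf⟩, fun h => ⟨h.1, fun f hf => h.2 f hf⟩⟩

theorem mzf1p_fil_le (i : ℕ) : mzf1p_fil Ops W i ≤ W := by
  cases i with
  | zero => exact bot_le
  | succ i => exact fun x hx => ((mzf1p_mem_fil_succ Ops W).1 hx).1

theorem mzf1p_fil_mono (i : ℕ) : mzf1p_fil Ops W i ≤ mzf1p_fil Ops W (i + 1) := by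
  induction i with
  | zero => exact bot_le
  | succ i ih =>
    intro x hx
    rw [mzf1p_mem_fil_succ] at hx ⊢
    exact ⟨hx.1, fun f hf => ih (hx.2 f hf)⟩

theorem mzf1p_fil_mono' {i j : ℕ} (h : i ≤ j) : mzf1p_fil Ops W i ≤ mzf1p_fil Ops W j :=
  monotone_nat_of_le_succ (mzf1p_fil_mono Ops W) h

/-- the operators map `W_{i+1}` into `W_i` -/
theorem mzf1p_fil_ops {i : ℕ} {f : AddMonoid.End M} (hf : f ∈ Ops) {x : M}
    (hx : x ∈ mzf1p_fil Ops W (i + 1)) : f x ∈ mzf1p_fil Ops W i :=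
  ((mzf1p_mem_fil_succ Ops W).1 hx).2 f hf

/-- an endomorphism stabilising `W` and commuting with the operators stabilises the filtration -/
theorem mzf1p_fil_stable {g : AddMonoid.End M} (hgW : ∀ x ∈ W, g x ∈ W)
    (hg : ∀ f ∈ Ops, ∀ x ∈ W, f (g x) = g (f x)) (i : ℕ) {x : M}
    (hx : x ∈ mzf1p_fil Ops W i) : g x ∈ mzf1p_fil Ops W i := by
  induction i generalizing x with
  | zero =>
    rw [mzf1p_fil_zero, AddSubgroup.mem_bot] at hx ⊢
    rw [hx, map_zero]
  | succ i ih =>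
    rw [mzf1p_mem_fil_succ] at hx ⊢
    exact ⟨hgW x hx.1, fun f hf => by rw [hg f hf x hx.1]; exact ih (hx.2 f hf)⟩

/-- a version for maps which are only additive (e.g. a group action) -/
theorem mzf1p_fil_stable' {g : M →+ M} (hgW : ∀ x ∈ W, g x ∈ W)
    (hg : ∀ f ∈ Ops, ∀ x ∈ W, f (g x) = g (f x)) (i : ℕ) {x : M}
    (hx : x ∈ mzf1p_fil Ops W i) : g x ∈ mzf1p_fil Ops W i :=
  mzf1p_fil_stable Ops W (g := g) hgW hg i hx

/-- if the filtration stops once, it stops for ever -/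
theorem mzf1p_fil_stop {n : ℕ} (h : mzf1p_fil Ops W n = mzf1p_fil Ops W (n + 1)) (m : ℕ) :
    mzf1p_fil Ops W (n + m) = mzf1p_fil Ops W n := by
  induction m with
  | zero => rfl
  | succ m ih =>
    rw [← add_assoc, mzf1p_fil_succ, ih, ← mzf1p_fil_succ, ← h]

section Finite

variable [hW : Finite W]

theorem mzf1p_finite_of_le {U : AddSubgroup M} (hU : U ≤ W) : (U : Set M).Finite :=
  Set.Finite.subset (Set.toFinite (W : Set M)) hU

/-- the filtration of a finite group stops -/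
theorem mzf1p_fil_exists_stop : ∃ n : ℕ, mzf1p_fil Ops W n = mzf1p_fil Ops W (n + 1) := by
  by_contra hcon
  push Not at hcon
  have hfin : ∀ i, ((mzf1p_fil Ops W i : AddSubgroup M) : Set M).Finite := fun i =>
    mzf1p_finite_of_le W (mzf1p_fil_le Ops W i)
  have hlt : ∀ i, ((mzf1p_fil Ops W i : AddSubgroup M) : Set M).ncard <
      ((mzf1p_fil Ops W (i + 1) : AddSubgroup M) : Set M).ncard := by
    intro i
    refine Set.ncard_lt_ncard ?_ (hfin (i + 1))
    refine lt_of_le_of_ne (mzf1p_fil_mono Ops W i) fun h => hcon i ?_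
    exact SetLike.coe_injective h
  have hge : ∀ i, i ≤ ((mzf1p_fil Ops W i : AddSubgroup M) : Set M).ncard := by
    intro i
    induction i with
    | zero => exact Nat.zero_le _
    | succ i ih => exact lt_of_le_of_lt ih (hlt i)
  have hle : ∀ i, ((mzf1p_fil Ops W i : AddSubgroup M) : Set M).ncard ≤ (W : Set M).ncard :=
    fun i => Set.ncard_le_ncard (mzf1p_fil_le Ops W i) (Set.toFinite (W : Set M))
  exact absurd (le_trans (hge _) (hle ((W : Set M).ncard + 1))) (by omega)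

variable {Ops W}

/-- a uniform nilpotency exponent on a finite stable subgroup -/
theorem mzf1p_uniform {f : AddMonoid.End M} {U : AddSubgroup M} (hU : U ≤ W)
    (hnil : ∀ x ∈ W, ∃ m : ℕ, (f ^ m) x = 0) : ∃ m : ℕ, ∀ x ∈ U, (f ^ m) x = 0 := by
  classical
  have : Finite U := (mzf1p_finite_of_le W hU).to_subtype
  have hex : ∀ x : U, ∃ m : ℕ, (f ^ m) (x : M) = 0 := fun x => hnil x (hU x.2)
  obtain ⟨x₀, hx₀⟩ := Finite.exists_max (fun x : U => Nat.find (hex x))
  refine ⟨Nat.find (hex x₀), fun x hx => ?_⟩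
  have h1 := Nat.find_spec (hex ⟨x, hx⟩)
  have h2 : Nat.find (hex ⟨x, hx⟩) ≤ Nat.find (hex x₀) := hx₀ ⟨x, hx⟩
  obtain ⟨d, hd⟩ := Nat.exists_eq_add_of_le h2
  rw [hd, add_comm, pow_add]
  show (f ^ d) ((f ^ Nat.find (hex ⟨x, hx⟩)) x) = 0
  rw [h1, map_zero]

/-- a nonzero finite stable subgroup on which `f` is locally nilpotent is not its own image -/
theorem mzf1p_map_ne {f : AddMonoid.End M} {U : AddSubgroup M} (hU : U ≤ W)
    (hnil : ∀ x ∈ W, ∃ m : ℕ, (f ^ m) x = 0) (hne : U ≠ ⊥) :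
    U.map (f : M →+ M) ≠ U := by
  intro hmap
  obtain ⟨m, hm⟩ := mzf1p_uniform hU hnil
  have hpow : ∀ k : ℕ, ∀ x ∈ U, ∃ y ∈ U, (f ^ k) y = x := by
    intro k
    induction k with
    | zero => exact fun x hx => ⟨x, hx, by simp⟩
    | succ k ih =>
      intro x hx
      obtain ⟨y, hy, rfl⟩ := ih x hx
      rw [← hmap] at hy
      obtain ⟨z, hz, rfl⟩ := hy
      exact ⟨z, hz, by rw [pow_succ]; rfl⟩
  refine hne ((AddSubgroup.eq_bot_iff_forall U).2 fun x hx => ?_)
  obtain ⟨y, hy, rfl⟩ := hpow m x hx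
  exact hm y hy

variable (Ops W)

/-- **the socle filtration is exhaustive** -/
theorem mzf1p_fil_exhaust (hstab : ∀ f ∈ Ops, ∀ x ∈ W, f x ∈ W)
    (hcomm : ∀ f ∈ Ops, ∀ g ∈ Ops, ∀ x ∈ W, f (g x) = g (f x))
    (hnil : ∀ f ∈ Ops, ∀ x ∈ W, ∃ m : ℕ, (f ^ m) x = 0) :
    ∃ n : ℕ, mzf1p_fil Ops W n = W := by
  obtain ⟨n, hn⟩ := mzf1p_fil_exists_stop Ops W
  refine ⟨n, le_antisymm (mzf1p_fil_le Ops W n) ?_⟩
  -- every stable subgroup of `W` lies in `W_n`, by induction on its cardinality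
  have key : ∀ c : ℕ, ∀ U : AddSubgroup M, (U : Set M).ncard = c → U ≤ W →
      (∀ f ∈ Ops, ∀ x ∈ U, f x ∈ U) → U ≤ mzf1p_fil Ops W n := by
    intro c
    induction c using Nat.strong_induction_on with
    | _ c ih =>
      intro U hc hUW hUstab
      by_cases hbot : U = ⊥
      · rw [hbot]; exact bot_le
      intro x hx
      rw [hn, mzf1p_mem_fil_succ]
      refine ⟨hUW hx, fun f hf => ?_⟩
      have hmapU : U.map (f : M →+ M) ≤ U := by
        rintro _ ⟨y, hy, rfl⟩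
        exact hUstab f hf y hy
      have hlt : ((U.map (f : M →+ M) : AddSubgroup M) : Set M).ncard < c := by
        rw [← hc]
        refine Set.ncard_lt_ncard ?_ (mzf1p_finite_of_le W hUW)
        refine lt_of_le_of_ne hmapU fun h => ?_
        exact mzf1p_map_ne hUW (hnil f hf) hbot (SetLike.coe_injective h)
      refine ih _ hlt (U.map (f : M →+ M)) rfl (hmapU.trans hUW) ?_ ⟨x, hx, rfl⟩
      rintro g hg _ ⟨y, hy, rfl⟩
      exact ⟨g y, hUstab g hg y hy, (hcomm g hg f hf y (hUW hy)).symm⟩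
  exact key _ W rfl le_rfl hstab

end Finite

end Prim

end Fermat.Agent.MZ
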