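/-
MAZUR project, node (F1), file `MZ/F1/Inst.lean` (helper7, prefix `mzf1i_`).

THE EISENSTEIN FILTRATION ON `J₀(N)`.  `N ≥ 1`, `r` a prime, `S` a finite set of primes containing
`r` and the primes dividing `N`; `η_ℓ := T_ℓ - (1 + ℓ)` for the primes `ℓ ∉ S`.

* `mzf1i_hecke_comm` : the Hecke operators at primes not dividing `N` commute on the `r`-power
  torsion of `J₀(N)` (`tji_hecke`, `t2k_T_comm`, injectivity of the character map);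
* `mzf1i_Eis N r S W` : `W ≤ J₀(N)` is a finite subgroup killed by a power of `r`, stable under
  `G_ℚ` and the `T_ℓ` (`ℓ ∉ S`), on which every `η_ℓ` is locally nilpotent
  (= `W` is a finite `𝔓`-primary Hecke-Galois submodule of `J₀(N)[r^∞]`, `𝔓 = (r, η_ℓ)`);
* `mzf1i_fil N r S W i` : the socle filtration `W[𝔓^i]` (`MZ/F1/Prim.lean`); exhaustive, Galois- and
  Hecke-stable, graded pieces killed by `r` and by every `η_ℓ`;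
* `mzf1i_frob` : for `σ` a Frobenius element at `A ∣ ℓ`, `ℓ ∉ S`, and `x ∈ W_{i+1}`:
  `σ σ x - (1 + ℓ) σ x + ℓ x ∈ W_i`   (Eichler–Shimura `est_frobQuadratic`).
-/
import Mathlib
import Fermat.Agent.MZ.F1.Prim
import Fermat.Agent.JT3.Tate.JZeroInputs
import Fermat.Agent.JT3.Tate.Inputs
import Fermat.Agent.JT3.ES.Torsion
import Fermat.Agent.JT3.ES.GaloisHecke

set_option autoImplicit false
set_option linter.unusedSectionVars false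
set_option linter.style.haveILetI false
set_option synthInstance.maxHeartbeats 400000
set_option maxHeartbeats 1000000

noncomputable section

namespace Fermat.Agent.MZ

open ModularCurve AlgebraicCurve Fermat.Agent.JT3

local notation "GQ" => (AlgebraicClosure ℚ ≃ₐ[ℚ] AlgebraicClosure ℚ)

variable (N r : ℕ) [NeZero N] [hr : Fact r.Prime]

/-! ### the Hecke operators commute on the `r`-power torsion -/

theorem mzf1i_hecke_tors (q : Nat.Primes) {n : ℕ} {y : JZero N} (hy : r ^ n • y = 0) :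
    r ^ n • heckeOperatorBar N q y = 0 := by
  rw [← map_nsmul, hy, map_zero]

theorem mzf1i_hecke_comm (ℓ ℓ' : Nat.Primes) (hℓ : ¬ (ℓ : ℕ) ∣ N) (hℓ' : ¬ (ℓ' : ℕ) ∣ N)
    {n : ℕ} {x : JZero N} (hx : r ^ n • x = 0) :
    heckeOperatorBar N ℓ (heckeOperatorBar N ℓ' x) =
      heckeOperatorBar N ℓ' (heckeOperatorBar N ℓ x) := by
  haveI : Fact (ℓ : ℕ).Prime := ⟨ℓ.2⟩
  haveI : Fact (ℓ' : ℕ).Prime := ⟨ℓ'.2⟩
  have h1 := mzf1i_hecke_tors N r ℓ' hx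
  have h2 := mzf1i_hecke_tors N r ℓ hx
  refine (tj_charSystem (tji_surj N r)).eq_of_eq n (mzf1i_hecke_tors N r ℓ h1)
    (mzf1i_hecke_tors N r ℓ' h2) ?_
  show tj_chi N r n _ = tj_chi N r n _
  have e1 : tj_chi N r n (heckeOperatorBar N ℓ (heckeOperatorBar N ℓ' x)) =
      t2c_T hℓ (tj_chi N r n (heckeOperatorBar N ℓ' x)) := tji_hecke N r (ℓ : ℕ) hℓ n _ h1
  have e2 : tj_chi N r n (heckeOperatorBar N ℓ' x) = t2c_T hℓ' (tj_chi N r n x) :=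
    tji_hecke N r (ℓ' : ℕ) hℓ' n _ hx
  have e3 : tj_chi N r n (heckeOperatorBar N ℓ' (heckeOperatorBar N ℓ x)) =
      t2c_T hℓ' (tj_chi N r n (heckeOperatorBar N ℓ x)) := tji_hecke N r (ℓ' : ℕ) hℓ' n _ h2
  have e4 : tj_chi N r n (heckeOperatorBar N ℓ x) = t2c_T hℓ (tj_chi N r n x) :=
    tji_hecke N r (ℓ : ℕ) hℓ n _ hx
  rw [e1, e2, e3, e4, t2k_T_comm]

/-! ### the Eisenstein operators -/

/-- `η_ℓ = T_ℓ - (1 + ℓ)` -/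
def mzf1i_eta (ℓ : Nat.Primes) : AddMonoid.End (JZero N) :=
  ((heckeOperatorBar N ℓ).toAddMonoidHom - (1 + (ℓ : ℕ)) • AddMonoidHom.id (JZero N) :
    JZero N →+ JZero N)

theorem mzf1i_eta_apply (ℓ : Nat.Primes) (x : JZero N) :
    mzf1i_eta N ℓ x = heckeOperatorBar N ℓ x - (1 + (ℓ : ℕ)) • x := rfl

/-- multiplication by `r` -/
def mzf1i_rr : AddMonoid.End (JZero N) := (r • AddMonoidHom.id (JZero N) : JZero N →+ JZero N)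

theorem mzf1i_rr_apply (x : JZero N) : mzf1i_rr N r x = r • x := rfl

theorem mzf1i_rr_pow_apply (m : ℕ) (x : JZero N) : (mzf1i_rr N r ^ m) x = r ^ m • x := by
  induction m generalizing x with
  | zero => simp
  | succ m ih =>
    rw [pow_succ]
    show (mzf1i_rr N r ^ m) (mzf1i_rr N r x) = _
    rw [ih, mzf1i_rr_apply, ← mul_nsmul', ← pow_succ]

/-- the generators of the Eisenstein maximal ideal `𝔓 = (r, T_ℓ - 1 - ℓ : ℓ ∉ S)` -/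
def mzf1i_Ops (S : Finset ℕ) : Set (AddMonoid.End (JZero N)) :=
  {f | f = mzf1i_rr N r ∨ ∃ ℓ : Nat.Primes, (ℓ : ℕ) ∉ S ∧ f = mzf1i_eta N ℓ}

theorem mzf1i_rr_mem (S : Finset ℕ) : mzf1i_rr N r ∈ mzf1i_Ops N r S := Or.inl rfl

theorem mzf1i_eta_mem (S : Finset ℕ) {ℓ : Nat.Primes} (hℓ : (ℓ : ℕ) ∉ S) :
    mzf1i_eta N ℓ ∈ mzf1i_Ops N r S := Or.inr ⟨ℓ, hℓ, rfl⟩

/-- the Galois action as an additive endomorphism -/
def mzf1i_gal (σ : GQ) : AddMonoid.End (JZero N) := DistribSMul.toAddMonoidHom (JZero N) σ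

theorem mzf1i_gal_apply (σ : GQ) (x : JZero N) : mzf1i_gal N σ x = σ • x := rfl

/-- **finite `𝔓`-primary Hecke–Galois submodules of `J₀(N)[r^∞]`** -/
structure mzf1i_Eis (S : Finset ℕ) (W : AddSubgroup (JZero N)) : Prop where
  fin : Finite W
  tors : ∃ k : ℕ, ∀ x ∈ W, r ^ k • x = 0
  gal : ∀ σ : GQ, ∀ x ∈ W, σ • x ∈ W
  hecke : ∀ ℓ : Nat.Primes, (ℓ : ℕ) ∉ S → ∀ x ∈ W, heckeOperatorBar N ℓ x ∈ W
  nil : ∀ ℓ : Nat.Primes, (ℓ : ℕ) ∉ S → ∀ x ∈ W, ∃ m : ℕ, (mzf1i_eta N ℓ ^ m) x = 0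

/-- the Eisenstein (socle) filtration `W[𝔓^i]` -/
def mzf1i_fil (S : Finset ℕ) (W : AddSubgroup (JZero N)) (i : ℕ) : AddSubgroup (JZero N) :=
  mzf1p_fil (mzf1i_Ops N r S) W i

variable {N r}
variable {S : Finset ℕ} {W : AddSubgroup (JZero N)}

theorem mzf1i_fil_zero : mzf1i_fil N r S W 0 = ⊥ := rfl

theorem mzf1i_fil_le (i : ℕ) : mzf1i_fil N r S W i ≤ W := mzf1p_fil_le _ _ i

theorem mzf1i_fil_mono {i j : ℕ} (h : i ≤ j) : mzf1i_fil N r S W i ≤ mzf1i_fil N r S W j :=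
  mzf1p_fil_mono' _ _ h

theorem mzf1i_mem_fil_succ {i : ℕ} {x : JZero N} :
    x ∈ mzf1i_fil N r S W (i + 1) ↔ x ∈ W ∧ r • x ∈ mzf1i_fil N r S W i ∧
      ∀ ℓ : Nat.Primes, (ℓ : ℕ) ∉ S → mzf1i_eta N ℓ x ∈ mzf1i_fil N r S W i := by
  unfold mzf1i_fil
  rw [mzf1p_mem_fil_succ]
  constructor
  · rintro ⟨h1, h2⟩
    exact ⟨h1, h2 _ (mzf1i_rr_mem N r S), fun ℓ hℓ => h2 _ (mzf1i_eta_mem N r S hℓ)⟩
  · rintro ⟨h1, h2, h3⟩
    refine ⟨h1, ?_⟩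
    rintro f (rfl | ⟨ℓ, hℓ, rfl⟩)
    · exact h2
    · exact h3 ℓ hℓ

/-- `r` maps `W_{i+1}` into `W_i` -/
theorem mzf1i_fil_r {i : ℕ} {x : JZero N} (hx : x ∈ mzf1i_fil N r S W (i + 1)) :
    r • x ∈ mzf1i_fil N r S W i := (mzf1i_mem_fil_succ.1 hx).2.1

/-- `η_ℓ` maps `W_{i+1}` into `W_i` -/
theorem mzf1i_fil_eta {i : ℕ} {x : JZero N} (hx : x ∈ mzf1i_fil N r S W (i + 1))
    {ℓ : Nat.Primes} (hℓ : (ℓ : ℕ) ∉ S) : mzf1i_eta N ℓ x ∈ mzf1i_fil N r S W i :=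
  (mzf1i_mem_fil_succ.1 hx).2.2 ℓ hℓ

section Eis

variable (hS : ∀ q : ℕ, q.Prime → q ∣ N → q ∈ S) (hW : mzf1i_Eis N r S W)

include hS hW

theorem mzf1i_not_dvd {ℓ : Nat.Primes} (hℓ : (ℓ : ℕ) ∉ S) : ¬ (ℓ : ℕ) ∣ N :=
  fun h => hℓ (hS ℓ ℓ.2 h)

/-- the operators commute on `W` -/
theorem mzf1i_ops_comm : ∀ f ∈ mzf1i_Ops N r S, ∀ g ∈ mzf1i_Ops N r S, ∀ x ∈ W,
    f (g x) = g (f x) := by
  obtain ⟨k, hk⟩ := hW.tors
  rintro f (rfl | ⟨ℓ, hℓ, rfl⟩) g (rfl | ⟨ℓ', hℓ', rfl⟩) x hx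
  · rfl
  · rw [mzf1i_rr_apply, mzf1i_rr_apply, map_nsmul]
  · rw [mzf1i_rr_apply, mzf1i_rr_apply, map_nsmul]
  · have hc := mzf1i_hecke_comm N r ℓ ℓ' (mzf1i_not_dvd hS hW hℓ) (mzf1i_not_dvd hS hW hℓ')
      (hk x hx)
    simp only [mzf1i_eta_apply, map_sub, map_nsmul, hc]
    module

theorem mzf1i_ops_stab : ∀ f ∈ mzf1i_Ops N r S, ∀ x ∈ W, f x ∈ W := by
  rintro f (rfl | ⟨ℓ, hℓ, rfl⟩) x hx
  · exact W.nsmul_mem hx r
  · rw [mzf1i_eta_apply]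
    exact W.sub_mem (hW.hecke ℓ hℓ x hx) (W.nsmul_mem hx _)

theorem mzf1i_ops_nil : ∀ f ∈ mzf1i_Ops N r S, ∀ x ∈ W, ∃ m : ℕ, (f ^ m) x = 0 := by
  obtain ⟨k, hk⟩ := hW.tors
  rintro f (rfl | ⟨ℓ, hℓ, rfl⟩) x hx
  · exact ⟨k, by rw [mzf1i_rr_pow_apply, hk x hx]⟩
  · exact hW.nil ℓ hℓ x hx

/-- **the Eisenstein filtration is exhaustive** -/
theorem mzf1i_fil_exhaust : ∃ n : ℕ, mzf1i_fil N r S W n = W := by
  haveI := hW.fin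
  exact mzf1p_fil_exhaust _ W (mzf1i_ops_stab hS hW) (mzf1i_ops_comm hS hW)
    (mzf1i_ops_nil hS hW)

/-- the Eisenstein filtration is Galois stable -/
theorem mzf1i_fil_gal (σ : GQ) (i : ℕ) {x : JZero N} (hx : x ∈ mzf1i_fil N r S W i) :
    σ • x ∈ mzf1i_fil N r S W i := by
  refine mzf1p_fil_stable (mzf1i_Ops N r S) W (g := mzf1i_gal N σ) (hW.gal σ) ?_ i hx
  rintro f (rfl | ⟨ℓ, hℓ, rfl⟩) y _
  · rw [mzf1i_rr_apply, mzf1i_rr_apply, map_nsmul]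
  · simp only [mzf1i_eta_apply, mzf1i_gal_apply, smul_sub, egh_comm]
    rw [smul_comm]

/-- the Eisenstein filtration is Hecke stable -/
theorem mzf1i_fil_hecke {ℓ : Nat.Primes} (hℓ : (ℓ : ℕ) ∉ S) (i : ℕ) {x : JZero N}
    (hx : x ∈ mzf1i_fil N r S W i) : heckeOperatorBar N ℓ x ∈ mzf1i_fil N r S W i := by
  obtain ⟨k, hk⟩ := hW.tors
  refine mzf1p_fil_stable (mzf1i_Ops N r S) W (g := (heckeOperatorBar N ℓ).toAddMonoidHom)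
    (hW.hecke ℓ hℓ) ?_ i hx
  rintro f (rfl | ⟨ℓ', hℓ', rfl⟩) y hy
  · show r • heckeOperatorBar N ℓ y = heckeOperatorBar N ℓ (r • y)
    rw [map_nsmul]
  · show mzf1i_eta N ℓ' (heckeOperatorBar N ℓ y) = heckeOperatorBar N ℓ (mzf1i_eta N ℓ' y)
    have hc := mzf1i_hecke_comm N r ℓ' ℓ (mzf1i_not_dvd hS hW hℓ') (mzf1i_not_dvd hS hW hℓ)
      (hk y hy)
    simp only [mzf1i_eta_apply, map_sub, map_nsmul, hc]

variable (hSr : r ∈ S)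

include hSr

/-- **the Eichler–Shimura relation on the graded pieces**: `(σ - 1)(σ - ℓ) W_{i+1} ⊆ W_i` for the
Frobenius elements at the primes outside `S` -/
theorem mzf1i_frob {ℓ : ℕ} (hℓ : ℓ.Prime) (hℓS : ℓ ∉ S)
    (A : ValuationSubring (AlgebraicClosure ℚ)) (hA : A.LiesOverPrime ℓ) (σ : GQ)
    (hσ : A.IsFrobeniusAt σ ℓ) {i : ℕ} {x : JZero N} (hx : x ∈ mzf1i_fil N r S W (i + 1)) :
    σ • σ • x - (1 + ℓ) • σ • x + ℓ • x ∈ mzf1i_fil N r S W i := by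
  obtain ⟨k, hk⟩ := hW.tors
  have hℓN : ¬ ℓ ∣ N := fun h => hℓS (hS ℓ hℓ h)
  have hℓr : ¬ ℓ ∣ r := fun h => hℓS (((Nat.prime_dvd_prime_iff_eq hℓ hr.out).mp h) ▸ hSr)
  have hℓNr : ¬ ℓ ∣ N * r := fun h => (hℓ.dvd_mul.mp h).elim hℓN hℓr
  have hxW : x ∈ W := mzf1i_fil_le _ hx
  have hq := est_frobQuadratic N r (fun ℓ hℓ hℓN A hA => tji_nodeE N ℓ hℓ hℓN A hA)
    (fun ℓ hℓ hℓN A hA h m hm z hmz hz => tji_S18 N ℓ hℓ hℓN A hA h m hm z hmz hz)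
    ℓ hℓ hℓNr A hA σ hσ x ⟨k, hk x hxW⟩
  have hη := mzf1i_fil_eta (mzf1i_fil_gal hS hW σ (i + 1) hx) (ℓ := ⟨ℓ, hℓ⟩) hℓS
  have hη' : heckeOperatorBar N ⟨ℓ, hℓ⟩ (σ • x) - (1 + ℓ) • σ • x ∈ mzf1i_fil N r S W i := hη
  have heq : σ • σ • x - (1 + ℓ) • σ • x + ℓ • x =
      heckeOperatorBar N ⟨ℓ, hℓ⟩ (σ • x) - (1 + ℓ) • σ • x := by
    have : σ • σ • x + ℓ • x = heckeOperatorBar N ⟨ℓ, hℓ⟩ (σ • x) := by
      rw [← sub_eq_zero, ← hq]; abel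
    rw [← this]; abel
  rw [heq]
  exact hη'

end Eis

end Fermat.Agent.MZ
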