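/-
MAZUR project, node (F1), file `MZ/F1/Cheb.lean` (helper7, prefix `mzf1c_`).

FROM FROBENIUS ELEMENTS TO ALL OF `G_ℚ` on the graded pieces of the Eisenstein filtration
(`MZ/F1/Inst.lean`), by weak Chebotarev `wc_main`.

* `mzf1c_pow_rel` (pure algebra): if `(φ - 1)(φ - ℓ) U ⊆ Z` for `φ`-stable subgroups `Z, U`, then
  `(φ^k - 1)(φ^k - ℓ^k) U ⊆ Z`;
* `mzf1c_exists_level` : a finite normal `L / ℚ` such that every `τ` fixing `L` fixes `W` pointwise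
  and has `dspk_cyc r τ = 1`;
* **`mzf1c_all`** : for EVERY `g ∈ G_ℚ`, `x ∈ W_{i+1}`, `c := (dspk_cyc r g).val`:
  `g g x - (1 + c) g x + c x ∈ W_i`.
-/
import Mathlib
import Fermat.Agent.MZ.F1.Inst
import Fermat.Agent.JT3.ES.Smooth
import Fermat.Agent.DS.Pack.CycloMod
import Fermat.Agent.WC.Final

set_option autoImplicit false
set_option linter.unusedSectionVars false
set_option linter.style.haveILetI false
set_option synthInstance.maxHeartbeats 400000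
set_option maxHeartbeats 1000000

noncomputable section

namespace Fermat.Agent.MZ

open ModularCurve AlgebraicCurve Fermat.Agent.JT3 Fermat.Agent.DS

local notation "GQ" => (AlgebraicClosure ℚ ≃ₐ[ℚ] AlgebraicClosure ℚ)
local notation "Qbar" => AlgebraicClosure ℚ

/-! ### powers of an operator with a quadratic relation -/

section PowRel

variable {M : Type*} [AddCommGroup M]

/-- the geometric sums `s_k = 1 + ℓ + ⋯ + ℓ^(k-1)` -/
def mzf1c_s (ℓ : ℤ) (k : ℕ) : ℤ := ∑ j ∈ Finset.range k, ℓ ^ j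

theorem mzf1c_s_zero (ℓ : ℤ) : mzf1c_s ℓ 0 = 0 := by simp [mzf1c_s]

theorem mzf1c_s_succ (ℓ : ℤ) (k : ℕ) : mzf1c_s ℓ (k + 1) = ℓ * mzf1c_s ℓ k + 1 := by
  rw [mzf1c_s, mzf1c_s, Finset.sum_range_succ', Finset.mul_sum]
  simp [pow_succ, mul_comm]

theorem mzf1c_s_two_mul (ℓ : ℤ) (k : ℕ) : mzf1c_s ℓ (k + k) = (1 + ℓ ^ k) * mzf1c_s ℓ k := by
  rw [mzf1c_s, Finset.sum_range_add, ← mzf1c_s, add_mul, one_mul, mzf1c_s, Finset.mul_sum]
  congr 1
  exact Finset.sum_congr rfl fun j _ => by rw [pow_add]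

variable (φ : AddMonoid.End M) (Z U : AddSubgroup M) (ℓ : ℤ)

theorem mzf1c_pow_stab (hU : ∀ x ∈ U, φ x ∈ U) (k : ℕ) : ∀ x ∈ U, (φ ^ k) x ∈ U := by
  induction k with
  | zero => intro x hx; simpa using hx
  | succ k ih =>
    intro x hx
    rw [pow_succ']
    exact hU _ (ih x hx)

/-- `φ^k x ≡ s_k φ x - (s_k - 1) x` modulo `Z` -/
theorem mzf1c_pow_lin (hZ : ∀ x ∈ Z, φ x ∈ Z)
    (hP : ∀ x ∈ U, φ (φ x) - (1 + ℓ) • φ x + ℓ • x ∈ Z) (k : ℕ) :
    ∀ x ∈ U, (φ ^ k) x - (mzf1c_s ℓ k • φ x - (mzf1c_s ℓ k - 1) • x) ∈ Z := by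
  induction k with
  | zero =>
    intro x _
    rw [mzf1c_s_zero, pow_zero]
    have : (1 : AddMonoid.End M) x - ((0 : ℤ) • φ x - ((0 : ℤ) - 1) • x) = 0 := by
      show x - ((0 : ℤ) • φ x - ((0 : ℤ) - 1) • x) = 0
      module
    rw [this]
    exact Z.zero_mem
  | succ k ih =>
    intro x hx
    have h1 := hZ _ (ih x hx)
    have h2 := Z.zsmul_mem (hP x hx) (mzf1c_s ℓ k)
    have h3 := Z.add_mem h1 h2
    have heq : (φ ^ (k + 1)) x - (mzf1c_s ℓ (k + 1) • φ x - (mzf1c_s ℓ (k + 1) - 1) • x) =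
        φ ((φ ^ k) x - (mzf1c_s ℓ k • φ x - (mzf1c_s ℓ k - 1) • x)) +
          mzf1c_s ℓ k • (φ (φ x) - (1 + ℓ) • φ x + ℓ • x) := by
      rw [pow_succ', mzf1c_s_succ]
      show φ ((φ ^ k) x) - _ = _
      simp only [map_sub, map_zsmul]
      module
    rw [heq]
    exact h3

/-- **the relation for the powers** -/
theorem mzf1c_pow_rel (hZ : ∀ x ∈ Z, φ x ∈ Z)
    (hP : ∀ x ∈ U, φ (φ x) - (1 + ℓ) • φ x + ℓ • x ∈ Z) (k : ℕ) :
    ∀ x ∈ U, (φ ^ k) ((φ ^ k) x) - (1 + ℓ ^ k) • (φ ^ k) x + ℓ ^ k • x ∈ Z := by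
  intro x hx
  have h1 := mzf1c_pow_lin φ Z U ℓ hZ hP (k + k) x hx
  have h2 := Z.zsmul_mem (mzf1c_pow_lin φ Z U ℓ hZ hP k x hx) (1 + ℓ ^ k)
  have h3 := Z.sub_mem h1 h2
  have heq : (φ ^ k) ((φ ^ k) x) - (1 + ℓ ^ k) • (φ ^ k) x + ℓ ^ k • x =
      ((φ ^ (k + k)) x - (mzf1c_s ℓ (k + k) • φ x - (mzf1c_s ℓ (k + k) - 1) • x)) -
        (1 + ℓ ^ k) • ((φ ^ k) x - (mzf1c_s ℓ k • φ x - (mzf1c_s ℓ k - 1) • x)) := by
    rw [mzf1c_s_two_mul, pow_add]
    show (φ ^ k) ((φ ^ k) x) - _ + _ = (φ ^ k) ((φ ^ k) x) - _ - _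
    module
  rw [heq]
  exact h3

end PowRel

/-! ### the finite level -/

section Level

/-- a finite normal field containing two given finite fields -/
theorem mzf1c_exists_normal (L₁ L₂ : IntermediateField ℚ Qbar) (h₁ : FiniteDimensional ℚ L₁)
    (h₂ : FiniteDimensional ℚ L₂) :
    ∃ L : IntermediateField ℚ Qbar, FiniteDimensional ℚ L ∧ Normal ℚ L ∧ L₁ ≤ L ∧ L₂ ≤ L := by
  haveI := h₁
  haveI := h₂
  haveI : FiniteDimensional ℚ ↥(L₁ ⊔ L₂) := IntermediateField.finiteDimensional_sup L₁ L₂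
  haveI : Algebra.IsAlgebraic ℚ Qbar := AlgebraicClosure.isAlgebraic ℚ
  haveI : IsAlgClosure ℚ Qbar := ⟨inferInstance, inferInstance⟩
  haveI : Normal ℚ Qbar := IsAlgClosure.normal ℚ Qbar
  refine ⟨IntermediateField.normalClosure ℚ ↥(L₁ ⊔ L₂) Qbar,
    normalClosure.is_finiteDimensional ℚ _ Qbar, normalClosure.normal ℚ _ Qbar, ?_, ?_⟩
  · exact le_sup_left.trans (IntermediateField.le_normalClosure _)
  · exact le_sup_right.trans (IntermediateField.le_normalClosure _)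

variable {N : ℕ} [NeZero N]

/-- a finite subgroup of `J₀(N)` is fixed pointwise by `Gal(ℚ̄ / L)` for a finite `L / ℚ` -/
theorem mzf1c_exists_fixing (W : AddSubgroup (JZero N)) [Finite W] :
    ∃ L : IntermediateField ℚ Qbar, FiniteDimensional ℚ L ∧
      ∀ σ : GQ, (∀ y ∈ L, σ y = y) → ∀ x ∈ W, σ • x = x := by
  choose Lx hLx hfix using fun x : W => egs_exists_fixing N (x : JZero N)
  haveI : ∀ x, FiniteDimensional ℚ (Lx x) := hLx
  refine ⟨⨆ x : W, Lx x, IntermediateField.finiteDimensional_iSup_of_finite, ?_⟩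
  intro σ hσ x hx
  exact hfix ⟨x, hx⟩ σ fun y hy => hσ y ((le_iSup Lx ⟨x, hx⟩) hy)

/-- the level of `W` and of the mod `r` cyclotomic character -/
theorem mzf1c_exists_level (r : ℕ) [NeZero r] (W : AddSubgroup (JZero N)) [Finite W] :
    ∃ L : IntermediateField ℚ Qbar, FiniteDimensional ℚ L ∧ Normal ℚ L ∧
      ∀ σ : GQ, (∀ y ∈ L, σ y = y) → (∀ x ∈ W, σ • x = x) ∧ dspk_cyc r σ = 1 := by
  obtain ⟨L₁, hL₁, h1⟩ := mzf1c_exists_fixing W
  obtain ⟨L₂, hL₂, h2⟩ := dspk_cyc_finiteLevel r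
  obtain ⟨L, hLfd, hLn, h1L, h2L⟩ := mzf1c_exists_normal L₁ L₂ hL₁ hL₂
  exact ⟨L, hLfd, hLn, fun σ hσ =>
    ⟨h1 σ fun y hy => hσ y (h1L hy), h2 σ fun y hy => hσ y (h2L hy)⟩⟩

end Level

/-! ### all of `G_ℚ` -/

section All

variable {N r : ℕ} [NeZero N] [hr : Fact r.Prime]
variable {S : Finset ℕ} {W : AddSubgroup (JZero N)}

/-- the Galois action, as a monoid homomorphism to the additive endomorphisms -/
def mzf1c_act (N : ℕ) [NeZero N] : GQ →* AddMonoid.End (JZero N) :=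
  DistribMulAction.toAddMonoidEnd GQ (JZero N)

theorem mzf1c_act_apply (σ : GQ) (x : JZero N) : mzf1c_act N σ x = σ • x := rfl

/-- **(F1), Chebotarev step**: `(g - 1)(g - χ(g)) W_{i+1} ⊆ W_i` for every `g ∈ G_ℚ`,
`χ = dspk_cyc r` the mod `r` cyclotomic character. -/
theorem mzf1c_all (hS : ∀ q : ℕ, q.Prime → q ∣ N → q ∈ S) (hW : mzf1i_Eis N r S W)
    (hSr : r ∈ S) (g : GQ) {i : ℕ} {x : JZero N} (hx : x ∈ mzf1i_fil N r S W (i + 1)) :
    g • g • x - (1 + ((dspk_cyc r g : (ZMod r)ˣ) : ZMod r).val) • g • x +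
      ((dspk_cyc r g : (ZMod r)ˣ) : ZMod r).val • x ∈ mzf1i_fil N r S W i := by
  haveI := hW.fin
  haveI : NeZero r := ⟨hr.out.ne_zero⟩
  obtain ⟨L, hLfd, hLn, hL⟩ := mzf1c_exists_level r W
  haveI := hLfd
  haveI := hLn
  obtain ⟨ℓ, A, φ, k, hℓ, hℓS, hA, hφ, hk⟩ := Fermat.Agent.WC.wc_main L S g
  -- the error term
  have hδ : ∀ y ∈ L, (g⁻¹ * φ ^ k) y = y := by
    intro y hy
    rw [AlgEquiv.mul_apply, hk y hy]
    show (g⁻¹ * g) y = y
    rw [inv_mul_cancel]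
    rfl
  obtain ⟨hδW, hδc⟩ := hL _ hδ
  have hprod : φ ^ k = g * (g⁻¹ * φ ^ k) := (mul_inv_cancel_left g (φ ^ k)).symm
  -- `φ ^ k` and `g` agree on `W`
  have hact : ∀ y ∈ W, (φ ^ k) • y = g • y := by
    intro y hy
    rw [hprod, mul_smul, hδW y hy]
  -- and have the same cyclotomic character
  have hcyc : dspk_cyc r g = dspk_cyc r φ ^ k := by
    rw [← map_pow, hprod, map_mul, hδc, mul_one]
  have hℓr : ¬ ℓ ∣ r := fun h => hℓS (((Nat.prime_dvd_prime_iff_eq hℓ hr.out).mp h) ▸ hSr)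
  have hfrobc : ((dspk_cyc r φ : (ZMod r)ˣ) : ZMod r) = (ℓ : ZMod r) :=
    dspk_cyc_frob r hℓ hℓr A hA φ hφ
  -- the relation for `φ ^ k`
  have hrel := mzf1c_pow_rel (mzf1c_act N φ) (mzf1i_fil N r S W i) (mzf1i_fil N r S W (i + 1))
    (ℓ : ℤ) (fun y hy => mzf1i_fil_gal hS hW φ i hy)
    (fun y hy => by
      have := mzf1i_frob hS hW hSr hℓ hℓS A hA φ hφ hy
      simp only [mzf1c_act_apply]
      have h2 : ((1 + (ℓ : ℤ)) • φ • y : JZero N) = (1 + ℓ) • φ • y := by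
        rw [← Nat.cast_one, ← Nat.cast_add, natCast_zsmul]
      have h3 : ((ℓ : ℤ) • y : JZero N) = ℓ • y := natCast_zsmul _ _
      rw [h2, h3]
      exact this) k x hx
  rw [← map_pow] at hrel
  simp only [mzf1c_act_apply] at hrel
  have hxW : x ∈ W := mzf1i_fil_le _ hx
  have hgxW : g • x ∈ W := hW.gal g x hxW
  rw [hact x hxW, hact _ hgxW] at hrel
  -- change the coefficients modulo `r`
  set c : ℕ := ((dspk_cyc r g : (ZMod r)ˣ) : ZMod r).val with hc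
  have hcong : (((ℓ : ℤ) ^ k : ℤ) : ZMod r) = (((c : ℕ) : ℤ) : ZMod r) := by
    have h1 : ((c : ℕ) : ZMod r) = ((dspk_cyc r g : (ZMod r)ˣ) : ZMod r) := by
      rw [hc]; exact ZMod.natCast_zmod_val _
    push_cast
    rw [h1, hcyc, Units.val_pow_eq_pow_val, hfrobc]
  obtain ⟨m, hm⟩ : (r : ℤ) ∣ (ℓ : ℤ) ^ k - c :=
    (ZMod.intCast_eq_intCast_iff_dvd_sub (c : ℤ) ((ℓ : ℤ) ^ k) r).1 hcong.symm
  have hdiff : r • (x - g • x) ∈ mzf1i_fil N r S W i :=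
    mzf1i_fil_r ((mzf1i_fil N r S W (i + 1)).sub_mem hx (mzf1i_fil_gal hS hW g (i + 1) hx))
  have hfin := (mzf1i_fil N r S W i).sub_mem hrel ((mzf1i_fil N r S W i).zsmul_mem hdiff m)
  have heq : g • g • x - (1 + c) • g • x + c • x =
      g • g • x - (1 + (ℓ : ℤ) ^ k) • g • x + (ℓ : ℤ) ^ k • x - m • r • (x - g • x) := by
    have e1 : ((1 + c) • g • x : JZero N) = (1 + (c : ℤ)) • g • x := by
      rw [show (1 + (c : ℤ)) = ((1 + c : ℕ) : ℤ) by push_cast; rfl, natCast_zsmul]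
    have e2 : (c • x : JZero N) = (c : ℤ) • x := (natCast_zsmul _ _).symm
    have e3 : (r • (x - g • x) : JZero N) = (r : ℤ) • (x - g • x) := (natCast_zsmul _ _).symm
    have e4 : (ℓ : ℤ) ^ k = c + r * m := by linarith
    rw [e1, e2, e3, e4]
    generalize g • g • x = z
    generalize g • x = y
    module
  rw [heq]
  exact hfin

end All

end Fermat.Agent.MZ
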