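/-
MAZUR project, node (F1), file `MZ/F1/Pair.lean` (helper7, prefix `mzf1k_`), Mathlib only.

KOLCHIN FOR A PAIR OF SUBGROUPS.  `Γ` a group acting on an abelian group `M`, `r` a prime,
`χ : Γ →* (ZMod r)ˣ`, `c g := (χ g).val`, `Z ≤ U` `Γ`-stable subgroups of `M`, `U` finite,
`r U ⊆ Z` and `(g - 1)(g - c g) U ⊆ Z` for all `g`.

* `mzf1k_fixed`  : a group acting on a nonzero finite `r`-torsion group `V` by operators with
  `(h - 1)² = 0` has a nonzero fixed vector (`IsPGroup` fixed point counting);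
* `mzf1k_eigen`  : `V` as above with `(g - 1)(g - c g) = 0`: there is `v ≠ 0` on which `Γ` acts
  trivially, or on which `Γ` acts through `c`;
* `mzf1k_step`   : if `Z < U`, there is `x ∈ U ∖ Z` with `g x - x ∈ Z` for all `g`, or
  `g x - c g • x ∈ Z` for all `g`;
* `mzf1k_series` : **a chain `U = F 0 ≥ F 1 ≥ ⋯ ≥ F n = Z` of `Γ`-stable subgroups with
  `(F (i+1)).relIndex (F i) = r`, `Γ` acting on `F i / F (i+1)` by `1` (`eps i = false`) or by
  `c` (`eps i = true`)**.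
-/
import Mathlib

set_option autoImplicit false
set_option linter.unusedSectionVars false
set_option linter.style.haveILetI false

namespace Fermat.Agent.MZ

open MulAction

section Fixed

variable {Q : Type*} [AddCommGroup Q] {H : Type*} [Group H]

theorem mzf1k_mul_apply (f g : AddMonoid.End Q) (x : Q) : (f * g) x = f (g x) := rfl

/-- powers of an operator with `(h - 1)² = 0` -/
theorem mzf1k_pow_apply (f : AddMonoid.End Q) (v : Q) (hv : f (f v) - 2 • f v + v = 0) (k : ℕ) :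
    (f ^ k) v = v + k • (f v - v) := by
  have hn : f (f v - v) = f v - v := by
    rw [map_sub, sub_eq_sub_iff_add_eq_add]
    have : f (f v) = 2 • f v - v := by rw [← sub_eq_zero, ← hv]; abel
    rw [this]; abel
  induction k with
  | zero => simp
  | succ k ih =>
    rw [pow_succ']
    show f ((f ^ k) v) = _
    rw [ih, map_add, map_nsmul, hn]
    rw [succ_nsmul]; abel

/-- **fixed vectors of unipotent groups** -/
theorem mzf1k_fixed (ρ : H →* AddMonoid.End Q) (V : AddSubgroup Q) [Finite V] (hV : V ≠ ⊥)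
    (r : ℕ) [hr : Fact r.Prime] (hrV : ∀ v ∈ V, r • v = 0) (hstab : ∀ h, ∀ v ∈ V, ρ h v ∈ V)
    (hrel : ∀ h, ∀ v ∈ V, ρ h (ρ h v) - 2 • ρ h v + v = 0) :
    ∃ v ∈ V, v ≠ 0 ∧ ∀ h, ρ h v = v := by
  classical
  letI act : MulAction H V :=
    { smul := fun h v => ⟨ρ h v, hstab h v v.2⟩
      one_smul := fun v => Subtype.ext (by show ρ 1 (v : Q) = v; rw [map_one]; rfl)
      mul_smul := fun h h' v => Subtype.ext (by
        show ρ (h * h') (v : Q) = ρ h (ρ h' (v : Q)); rw [map_mul]; rfl) }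
  have hsmul : ∀ (h : H) (v : V), ((h • v : V) : Q) = ρ h v := fun _ _ => rfl
  -- `h ^ r` acts trivially
  have hpow : ∀ (h : H) (v : V), h ^ r • v = v := by
    intro h v
    apply Subtype.ext
    rw [hsmul, map_pow, mzf1k_pow_apply (ρ h) v (hrel h v v.2) r]
    have : r • (ρ h (v : Q) - v) = 0 := hrV _ (V.sub_mem (hstab h v v.2) v.2)
    rw [this, add_zero]
  -- the image in the permutation group is an `r`-group
  let θ : H →* Equiv.Perm V := MulAction.toPermHom H V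
  have hP : IsPGroup r θ.range := by
    rintro ⟨g, h, rfl⟩
    refine ⟨1, Subtype.ext ?_⟩
    rw [pow_one]
    show (θ h) ^ r = 1
    rw [← map_pow]
    exact Equiv.ext fun v => hpow h v
  -- `r` divides the cardinality of `V`
  have hcard : r ∣ Nat.card V := by
    obtain ⟨v, hvV, hv0⟩ : ∃ v ∈ V, v ≠ 0 := by
      by_contra hcon
      push Not at hcon
      exact hV ((AddSubgroup.eq_bot_iff_forall V).2 hcon)
    have h1 : addOrderOf (⟨v, hvV⟩ : V) = r :=
      addOrderOf_eq_prime (Subtype.ext (hrV v hvV)) (fun h => hv0 (congrArg Subtype.val h))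
    rw [← h1]
    exact addOrderOf_dvd_natCard _
  have h0 : (0 : V) ∈ fixedPoints θ.range V := by
    rintro ⟨g, h, rfl⟩
    show θ h 0 = 0
    apply Subtype.ext
    show ρ h (0 : Q) = 0
    rw [map_zero]
  obtain ⟨b, hb, hb0⟩ := hP.exists_fixed_point_of_prime_dvd_card_of_fixed_point V hcard h0
  refine ⟨b, b.2, fun h => hb0 (Subtype.ext h.symm), fun h => ?_⟩
  have := hb ⟨θ h, h, rfl⟩
  exact congrArg Subtype.val this

end Fixed

section Eigen

variable {Q : Type*} [AddCommGroup Q] {Γ : Type*} [Group Γ]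

/-- a generator of the image of a character with values in `(ZMod r)ˣ` -/
theorem mzf1k_exists_gen {r : ℕ} [Fact r.Prime] (χ : Γ →* (ZMod r)ˣ) :
    ∃ g₀ : Γ, ∀ g : Γ, ∃ j : ℕ, χ g = χ g₀ ^ j := by
  haveI : IsCyclic χ.range := inferInstance
  obtain ⟨⟨u, ⟨g₀, rfl⟩⟩, hu⟩ := IsCyclic.exists_generator (α := χ.range)
  refine ⟨g₀, fun g => ?_⟩
  have h1 := hu ⟨χ g, ⟨g, rfl⟩⟩
  rw [← mem_powers_iff_mem_zpowers] at h1
  obtain ⟨j, hj⟩ := h1
  refine ⟨j, ?_⟩
  have := congrArg Subtype.val hj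
  simpa using this.symm

/-- **a common eigenvector with character `1` or `χ`** -/
theorem mzf1k_eigen (ρ : Γ →* AddMonoid.End Q) (V : AddSubgroup Q) [Finite V] (hV : V ≠ ⊥)
    (r : ℕ) [hr : Fact r.Prime] (hrV : ∀ v ∈ V, r • v = 0) (hstab : ∀ g, ∀ v ∈ V, ρ g v ∈ V)
    (χ : Γ →* (ZMod r)ˣ)
    (hrel : ∀ g, ∀ v ∈ V, ρ g (ρ g v) - (1 + ((χ g : (ZMod r)ˣ) : ZMod r).val) • ρ g v +
      ((χ g : (ZMod r)ˣ) : ZMod r).val • v = 0) :
    ∃ v ∈ V, v ≠ 0 ∧ ((∀ g, ρ g v = v) ∨
      (∀ g, ρ g v = ((χ g : (ZMod r)ˣ) : ZMod r).val • v)) := by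
  haveI : Fact (1 < r) := ⟨hr.out.one_lt⟩
  -- the kernel of `χ` has a nonzero fixed vector
  have hker : ∀ h : χ.ker, ∀ v ∈ V, ρ h (ρ h v) - 2 • ρ h v + v = 0 := by
    intro h v hv
    have h1 := hrel h v hv
    have h2 : χ (h : Γ) = 1 := h.2
    rw [h2, Units.val_one, ZMod.val_one, one_nsmul] at h1
    exact h1
  obtain ⟨v₀, hv₀V, hv₀0, hv₀⟩ := mzf1k_fixed (ρ.comp χ.ker.subtype) V hV r hrV
    (fun h v hv => hstab h v hv) hker
  -- the subgroup of vectors fixed by the kernel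
  let V' : AddSubgroup Q :=
    { carrier := {v | v ∈ V ∧ ∀ h : Γ, χ h = 1 → ρ h v = v}
      zero_mem' := ⟨V.zero_mem, fun h _ => map_zero _⟩
      add_mem' := fun {a b} ha hb => ⟨V.add_mem ha.1 hb.1, fun h hh => by
        rw [map_add, ha.2 h hh, hb.2 h hh]⟩
      neg_mem' := fun {a} ha => ⟨V.neg_mem ha.1, fun h hh => by rw [map_neg, ha.2 h hh]⟩ }
  have hV'mem : ∀ v, v ∈ V' ↔ v ∈ V ∧ ∀ h : Γ, χ h = 1 → ρ h v = v := fun _ => Iff.rfl
  have hv₀V' : v₀ ∈ V' := ⟨hv₀V, fun h hh => hv₀ ⟨h, hh⟩⟩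
  -- `V'` is stable
  have hV'stab : ∀ g, ∀ v ∈ V', ρ g v ∈ V' := by
    intro g v hv
    refine ⟨hstab g v hv.1, fun h hh => ?_⟩
    have h1 : χ (g⁻¹ * h * g) = 1 := by
      rw [map_mul, map_mul, hh, mul_one, map_inv, inv_mul_cancel]
    have h2 := hv.2 _ h1
    have h3 : ρ h (ρ g v) = ρ g (ρ (g⁻¹ * h * g) v) := by
      rw [← mzf1k_mul_apply, ← mzf1k_mul_apply, ← map_mul, ← map_mul]
      congr 2
      group
    rw [h3, h2]
  -- a generator
  obtain ⟨g₀, hg₀⟩ := mzf1k_exists_gen χ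
  set a : ℕ := ((χ g₀ : (ZMod r)ˣ) : ZMod r).val with ha
  -- reduction to the powers of `g₀`
  have hred : ∀ g, ∃ j : ℕ, χ g = χ g₀ ^ j ∧ ∀ v ∈ V', ρ g v = (ρ g₀ ^ j) v := by
    intro g
    obtain ⟨j, hj⟩ := hg₀ g
    refine ⟨j, hj, fun v hv => ?_⟩
    have h1 : χ ((g₀ ^ j)⁻¹ * g) = 1 := by
      rw [map_mul, map_inv, map_pow, hj, inv_mul_cancel]
    have h2 : g = g₀ ^ j * ((g₀ ^ j)⁻¹ * g) := by group
    conv_lhs => rw [h2]
    rw [map_mul, mzf1k_mul_apply, hv.2 _ h1, map_pow]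
  by_cases hcase : ∀ y ∈ V', ρ g₀ y = a • y
  · -- the character `χ`
    refine ⟨v₀, hv₀V, hv₀0, Or.inr fun g => ?_⟩
    obtain ⟨j, hj, hgj⟩ := hred g
    rw [hgj v₀ hv₀V']
    have hpow : ∀ k : ℕ, ∀ y ∈ V', (ρ g₀ ^ k) y = a ^ k • y := by
      intro k
      induction k with
      | zero => intro y _; simp
      | succ k ih =>
        intro y hy
        rw [pow_succ, mzf1k_mul_apply, hcase y hy, map_nsmul, ih y hy, ← mul_nsmul,
          pow_succ]
    rw [hpow j v₀ hv₀V']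
    -- `a ^ j ≡ (χ g).val` modulo `r`
    have hcong : ((a ^ j : ℕ) : ZMod r) = ((((χ g : (ZMod r)ˣ) : ZMod r).val : ℕ) : ZMod r) := by
      rw [Nat.cast_pow, ha, ZMod.natCast_zmod_val, ZMod.natCast_zmod_val, hj,
        Units.val_pow_eq_pow_val]
    have hmod := (ZMod.natCast_eq_natCast_iff' _ _ r).1 hcong
    have hrv : r • v₀ = 0 := hrV v₀ hv₀V
    rw [← Nat.mod_add_div (a ^ j) r, ← Nat.mod_add_div ((χ g : (ZMod r)ˣ) : ZMod r).val r, hmod,
      add_nsmul, add_nsmul, mul_nsmul, mul_nsmul, hrv, smul_zero, smul_zero]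
  · -- the trivial character
    push Not at hcase
    obtain ⟨y, hyV', hy⟩ := hcase
    have hx0 : ρ g₀ y - a • y ≠ 0 := sub_ne_zero.2 hy
    have hxV' : ρ g₀ y - a • y ∈ V' := V'.sub_mem (hV'stab g₀ y hyV') (V'.nsmul_mem hyV' a)
    refine ⟨ρ g₀ y - a • y, hxV'.1, hx0, Or.inl fun g => ?_⟩
    have hfix : ρ g₀ (ρ g₀ y - a • y) = ρ g₀ y - a • y := by
      have h1 := hrel g₀ y hyV'.1
      rw [map_sub, map_nsmul, sub_eq_sub_iff_add_eq_add]
      have h2 : ρ g₀ (ρ g₀ y) = (1 + a) • ρ g₀ y - a • y := by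
        rw [← sub_eq_zero, ← h1]; abel
      rw [h2, add_nsmul, one_nsmul]; abel
    obtain ⟨j, -, hgj⟩ := hred g
    rw [hgj _ hxV']
    have hpow : ∀ k : ℕ, (ρ g₀ ^ k) (ρ g₀ y - a • y) = ρ g₀ y - a • y := by
      intro k
      induction k with
      | zero => simp
      | succ k ih => rw [pow_succ, mzf1k_mul_apply, hfix, ih]
    exact hpow j

end Eigen

/-! ### series -/

section Series

variable {M : Type*} [AddCommGroup M] {Γ : Type*} [Group Γ] [DistribMulAction Γ M]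

/-- a chain `U = F 0 ≥ F 1 ≥ ⋯ ≥ F n = Z` of `Γ`-stable subgroups with successive indices `r`, `Γ`
acting on `F i / F (i + 1)` trivially (`eps i = false`) or through `c` (`eps i = true`) -/
def mzf1k_Series (c : Γ → ℕ) (r : ℕ) (Z U : AddSubgroup M) : Prop :=
  ∃ (n : ℕ) (F : ℕ → AddSubgroup M) (eps : ℕ → Bool), F 0 = U ∧ F n = Z ∧ ∀ i < n,
    F (i + 1) ≤ F i ∧ (∀ g : Γ, ∀ x ∈ F i, g • x ∈ F i) ∧ (F (i + 1)).relIndex (F i) = r ∧
      ∀ g : Γ, ∀ x ∈ F i, g • x - (if eps i then c g • x else x) ∈ F (i + 1)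

variable {c : Γ → ℕ} {r : ℕ}

theorem mzf1k_Series.refl (U : AddSubgroup M) : mzf1k_Series c r U U :=
  ⟨0, fun _ => U, fun _ => false, rfl, rfl, fun i hi => absurd hi (Nat.not_lt_zero i)⟩

theorem mzf1k_Series.single {Z U : AddSubgroup M} (hle : Z ≤ U)
    (hstab : ∀ g : Γ, ∀ x ∈ U, g • x ∈ U) (hidx : Z.relIndex U = r) (b : Bool)
    (hact : ∀ g : Γ, ∀ x ∈ U, g • x - (if b then c g • x else x) ∈ Z) :
    mzf1k_Series c r Z U := by
  refine ⟨1, fun i => if i = 0 then U else Z, fun _ => b, rfl, rfl, fun i hi => ?_⟩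
  have hi0 : i = 0 := by omega
  subst hi0
  exact ⟨hle, hstab, hidx, hact⟩

theorem mzf1k_Series.trans {Z Y U : AddSubgroup M} (h₁ : mzf1k_Series c r Y U)
    (h₂ : mzf1k_Series c r Z Y) : mzf1k_Series c r Z U := by
  obtain ⟨n₁, F₁, e₁, h10, h1n, h1⟩ := h₁
  obtain ⟨n₂, F₂, e₂, h20, h2n, h2⟩ := h₂
  refine ⟨n₁ + n₂, fun i => if i ≤ n₁ then F₁ i else F₂ (i - n₁),
    fun i => if i < n₁ then e₁ i else e₂ (i - n₁), ?_, ?_, fun i hi => ?_⟩
  · simp [h10]
  · by_cases hn : n₂ = 0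
    · subst hn
      simp only [add_zero, le_refl, if_true]
      rw [h1n, ← h20, h2n]
    · have : ¬ n₁ + n₂ ≤ n₁ := by omega
      simp only [this, if_false, Nat.add_sub_cancel_left]
      exact h2n
  · by_cases hlt : i < n₁
    · have h1' : i ≤ n₁ := hlt.le
      have h2' : i + 1 ≤ n₁ := hlt
      simp only [h1', h2', hlt, if_true]
      exact h1 i hlt
    · have hge : n₁ ≤ i := not_lt.1 hlt
      have hF : (if i ≤ n₁ then F₁ i else F₂ (i - n₁)) = F₂ (i - n₁) := by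
        by_cases hle : i ≤ n₁
        · have : i = n₁ := le_antisymm hle hge
          subst this
          simp only [le_refl, if_true, Nat.sub_self]
          rw [h1n, h20]
        · simp only [hle, if_false]
      have hF' : (if i + 1 ≤ n₁ then F₁ (i + 1) else F₂ (i + 1 - n₁)) = F₂ (i - n₁ + 1) := by
        have : ¬ i + 1 ≤ n₁ := by omega
        simp only [this, if_false]
        congr 1
        omega
      simp only [hF, hF', hlt, if_false]
      exact h2 (i - n₁) (by omega)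

end Series

/-! ### pairs -/

section Pair

variable {M : Type*} [AddCommGroup M] {Γ : Type*} [Group Γ] [DistribMulAction Γ M]
variable {r : ℕ} [hr : Fact r.Prime]

/-- the value of a character, as a natural number -/
def mzf1k_val (χ : Γ →* (ZMod r)ˣ) (g : Γ) : ℕ := ((χ g : (ZMod r)ˣ) : ZMod r).val

/-- the hypotheses on a pair `Z ≤ U` -/
structure mzf1k_Pair (χ : Γ →* (ZMod r)ˣ) (Z U : AddSubgroup M) : Prop where
  le : Z ≤ U
  fin : (U : Set M).Finite
  stabZ : ∀ g : Γ, ∀ x ∈ Z, g • x ∈ Z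
  stabU : ∀ g : Γ, ∀ x ∈ U, g • x ∈ U
  tors : ∀ x ∈ U, r • x ∈ Z
  rel : ∀ g : Γ, ∀ x ∈ U,
    g • g • x - (1 + mzf1k_val χ g) • g • x + mzf1k_val χ g • x ∈ Z

variable {χ : Γ →* (ZMod r)ˣ} {Z U : AddSubgroup M}

/-- the action on the quotient `M ⧸ Z` -/
def mzf1k_quot (Z : AddSubgroup M) (hZ : ∀ g : Γ, ∀ x ∈ Z, g • x ∈ Z) :
    Γ →* AddMonoid.End (M ⧸ Z) where
  toFun g := QuotientAddGroup.map Z Z (DistribSMul.toAddMonoidHom M g) (fun x hx => hZ g x hx)
  map_one' := by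
    refine QuotientAddGroup.addMonoidHom_ext _ (AddMonoidHom.ext fun x => ?_)
    show ((QuotientAddGroup.mk ((1 : Γ) • x) : M ⧸ Z)) = QuotientAddGroup.mk x
    rw [one_smul]
  map_mul' g g' := by
    refine QuotientAddGroup.addMonoidHom_ext _ (AddMonoidHom.ext fun x => ?_)
    show ((QuotientAddGroup.mk ((g * g') • x) : M ⧸ Z)) = QuotientAddGroup.mk (g • g' • x)
    rw [mul_smul]

theorem mzf1k_quot_mk (hZ : ∀ g : Γ, ∀ x ∈ Z, g • x ∈ Z) (g : Γ) (x : M) :
    mzf1k_quot Z hZ g (QuotientAddGroup.mk x) = QuotientAddGroup.mk (g • x) := rfl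

/-- **one step**: a new element on which `Γ` acts by `1` or by `χ` modulo `Z` -/
theorem mzf1k_step (hP : mzf1k_Pair χ Z U) (hne : Z ≠ U) :
    ∃ x ∈ U, x ∉ Z ∧ ((∀ g : Γ, g • x - x ∈ Z) ∨ (∀ g : Γ, g • x - mzf1k_val χ g • x ∈ Z)) := by
  let π : M →+ M ⧸ Z := QuotientAddGroup.mk' Z
  have hπ : ∀ x, π x = 0 ↔ x ∈ Z := fun x => QuotientAddGroup.eq_zero_iff x
  let ρ := mzf1k_quot Z hP.stabZ
  have hρ : ∀ g x, ρ g (π x) = π (g • x) := fun g x => rfl
  let V : AddSubgroup (M ⧸ Z) := U.map π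
  haveI : Finite V := (hP.fin.image π).to_subtype
  have hVne : V ≠ ⊥ := by
    intro hbot
    apply hne
    refine le_antisymm hP.le fun x hx => ?_
    have : π x ∈ V := ⟨x, hx, rfl⟩
    rw [hbot, AddSubgroup.mem_bot] at this
    exact (hπ x).1 this
  obtain ⟨v, hvV, hv0, hv⟩ := mzf1k_eigen ρ V hVne r
    (by
      rintro _ ⟨x, hx, rfl⟩
      rw [← map_nsmul]
      exact (hπ _).2 (hP.tors x hx))
    (by
      rintro g _ ⟨x, hx, rfl⟩
      exact ⟨g • x, hP.stabU g x hx, rfl⟩) χ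
    (by
      rintro g _ ⟨x, hx, rfl⟩
      rw [hρ, hρ, ← map_nsmul, ← map_nsmul, ← map_sub, ← map_add]
      exact (hπ _).2 (hP.rel g x hx))
  obtain ⟨x, hxU, rfl⟩ := hvV
  refine ⟨x, hxU, fun hxZ => hv0 ((hπ x).2 hxZ), ?_⟩
  rcases hv with h | h
  · left
    intro g
    rw [← hπ, map_sub, ← hρ, h g, sub_self]
  · right
    intro g
    rw [← hπ, map_sub, map_nsmul, ← hρ, h g]
    exact sub_self _

/-- the subgroup generated by `Z` and `x` -/
theorem mzf1k_relIndex_sup {x : M} (hxZ : x ∉ Z) (hrx : r • x ∈ Z) :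
    Z.relIndex (Z ⊔ AddSubgroup.zmultiples x) = r := by
  set U₁ := Z ⊔ AddSubgroup.zmultiples x with hU₁
  have hxU₁ : x ∈ U₁ := (le_sup_right : AddSubgroup.zmultiples x ≤ U₁)
    (AddSubgroup.mem_zmultiples x)
  let xb : U₁ ⧸ Z.addSubgroupOf U₁ := QuotientAddGroup.mk ⟨x, hxU₁⟩
  have hgen : ∀ y : U₁ ⧸ Z.addSubgroupOf U₁, y ∈ AddSubgroup.zmultiples xb := by
    intro y
    induction y using QuotientAddGroup.induction_on with
    | H y =>
      obtain ⟨z, hz, w, hw, hzw⟩ := AddSubgroup.mem_sup.1 y.2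
      obtain ⟨k, rfl⟩ := AddSubgroup.mem_zmultiples_iff.1 hw
      refine AddSubgroup.mem_zmultiples_iff.2 ⟨k, ?_⟩
      have hzU₁ : z ∈ U₁ := (le_sup_left : Z ≤ U₁) hz
      have hy : y = ⟨z, hzU₁⟩ + k • ⟨x, hxU₁⟩ := Subtype.ext (by simp [hzw])
      rw [hy, QuotientAddGroup.mk_add, QuotientAddGroup.mk_zsmul]
      have : (QuotientAddGroup.mk ⟨z, hzU₁⟩ : U₁ ⧸ Z.addSubgroupOf U₁) = 0 :=
        (QuotientAddGroup.eq_zero_iff _).2 (AddSubgroup.mem_addSubgroupOf.2 hz)
      rw [this, zero_add]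
  have hcard := addOrderOf_eq_card_of_forall_mem_zmultiples hgen
  have hord : addOrderOf xb = r := by
    refine addOrderOf_eq_prime ?_ ?_
    · rw [← QuotientAddGroup.mk_nsmul]
      exact (QuotientAddGroup.eq_zero_iff _).2 (AddSubgroup.mem_addSubgroupOf.2 hrx)
    · intro h
      exact hxZ (AddSubgroup.mem_addSubgroupOf.1 ((QuotientAddGroup.eq_zero_iff _).1 h))
  rw [AddSubgroup.relIndex, AddSubgroup.index, ← hcard, hord]

/-- **Kolchin for pairs** -/
theorem mzf1k_series (hP : mzf1k_Pair χ Z U) : mzf1k_Series (mzf1k_val χ) r Z U := by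
  -- induction on the number of elements of `U` outside `Z`
  have key : ∀ d : ℕ, ∀ Z : AddSubgroup M, mzf1k_Pair χ Z U →
      (U : Set M).ncard - (Z : Set M).ncard = d → mzf1k_Series (mzf1k_val χ) r Z U := by
    intro d
    induction d using Nat.strong_induction_on with
    | _ d ih =>
      intro Z hP hd
      by_cases hne : Z = U
      · rw [hne]; exact mzf1k_Series.refl U
      obtain ⟨x, hxU, hxZ, hx⟩ := mzf1k_step hP hne
      set U₁ := Z ⊔ AddSubgroup.zmultiples x with hU₁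
      have hZU₁ : Z ≤ U₁ := le_sup_left
      have hxU₁ : x ∈ U₁ := (le_sup_right : AddSubgroup.zmultiples x ≤ U₁)
        (AddSubgroup.mem_zmultiples x)
      have hU₁U : U₁ ≤ U := sup_le hP.le ((AddSubgroup.zmultiples_le_of_mem hxU))
      -- the action on `U₁` modulo `Z`
      have hact : ∃ b : Bool, ∀ g : Γ, ∀ y ∈ U₁,
          g • y - (if b then mzf1k_val χ g • y else y) ∈ Z := by
        rcases hx with h | h
        · refine ⟨false, fun g y hy => ?_⟩
          obtain ⟨z, hz, w, hw, rfl⟩ := AddSubgroup.mem_sup.1 hy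
          obtain ⟨k, rfl⟩ := AddSubgroup.mem_zmultiples_iff.1 hw
          have : g • (z + k • x) - (z + k • x) = (g • z - z) + k • (g • x - x) := by
            have e : g • k • x = k • g • x := map_zsmul (DistribSMul.toAddMonoidHom M g) k x
            rw [smul_add, e, zsmul_sub]
            abel
          simp only [Bool.false_eq_true, if_false]
          rw [this]
          exact Z.add_mem (Z.sub_mem (hP.stabZ g z hz) hz) (Z.zsmul_mem (h g) k)
        · refine ⟨true, fun g y hy => ?_⟩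
          obtain ⟨z, hz, w, hw, rfl⟩ := AddSubgroup.mem_sup.1 hy
          obtain ⟨k, rfl⟩ := AddSubgroup.mem_zmultiples_iff.1 hw
          have : g • (z + k • x) - mzf1k_val χ g • (z + k • x) =
              (g • z - mzf1k_val χ g • z) + k • (g • x - mzf1k_val χ g • x) := by
            have e : g • k • x = k • g • x := map_zsmul (DistribSMul.toAddMonoidHom M g) k x
            rw [smul_add, e, zsmul_sub, nsmul_add, smul_comm (mzf1k_val χ g) k x]
            abel
          simp only [if_true]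
          rw [this]
          exact Z.add_mem (Z.sub_mem (hP.stabZ g z hz) (Z.nsmul_mem hz _))
            (Z.zsmul_mem (h g) k)
      obtain ⟨b, hb⟩ := hact
      have hstabU₁ : ∀ g : Γ, ∀ y ∈ U₁, g • y ∈ U₁ := by
        intro g y hy
        have h1 := hZU₁ (hb g y hy)
        have h2 : (if b then mzf1k_val χ g • y else y) ∈ U₁ := by
          split_ifs
          · exact U₁.nsmul_mem hy _
          · exact hy
        have := U₁.add_mem h1 h2
        rwa [sub_add_cancel] at this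
      have hidx : Z.relIndex U₁ = r := mzf1k_relIndex_sup hxZ (hP.tors x hxU)
      -- the pair `(U₁, U)`
      have hP₁ : mzf1k_Pair χ U₁ U :=
        { le := hU₁U
          fin := hP.fin
          stabZ := hstabU₁
          stabU := hP.stabU
          tors := fun y hy => hZU₁ (hP.tors y hy)
          rel := fun g y hy => hZU₁ (hP.rel g y hy) }
      have hlt : (U : Set M).ncard - (U₁ : Set M).ncard < d := by
        have h1 : (Z : Set M).ncard < (U₁ : Set M).ncard :=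
          Set.ncard_lt_ncard (lt_of_le_of_ne hZU₁ fun h => hxZ (by
            have h' : x ∈ (U₁ : Set M) := hxU₁
            rw [← h] at h'
            exact h')) (hP.fin.subset hU₁U)
        have h2 : (U₁ : Set M).ncard ≤ (U : Set M).ncard := Set.ncard_le_ncard hU₁U hP.fin
        omega
      exact (ih _ hlt U₁ hP₁ rfl).trans (mzf1k_Series.single hZU₁ hstabU₁ hidx b hb)
  exact key _ Z hP rfl

end Pair

end Fermat.Agent.MZ
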