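/-
MAZUR project, node (F1), file `MZ/F1/Final.lean` (helper7, prefix `mzf1_`).

**(F1): THE CONSTITUENTS OF A FINITE EISENSTEIN-PRIMARY HECKE–GALOIS SUBMODULE OF `J₀(N)[r^∞]`
ARE `ℤ/r` OR `μ_r`.**

`mzf1_main` : for `W ≤ J₀(N)` with `mzf1i_Eis N r S W` (finite, killed by a power of `r`, stable
under `G_ℚ` and the `T_ℓ`, `ℓ ∉ S`, every `T_ℓ - (1 + ℓ)` locally nilpotent on `W`; `S ∋ r` and the
primes dividing `N`) there is a chain `W = F 0 ≥ F 1 ≥ ⋯ ≥ F n = 0` of `G_ℚ`-stable subgroups with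
`(F (i+1)).relIndex (F i) = r` such that `G_ℚ` acts on `F i / F (i + 1)` trivially (`eps i = false`)
or through the mod `r` cyclotomic character `mzf1_cyc r` (`eps i = true`).
-/
import Mathlib
import Fermat.Agent.MZ.F1.Cheb
import Fermat.Agent.MZ.F1.Pair

set_option autoImplicit false
set_option linter.unusedSectionVars false
set_option linter.style.haveILetI false
set_option synthInstance.maxHeartbeats 400000
set_option maxHeartbeats 1000000

noncomputable section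

namespace Fermat.Agent.MZ

open ModularCurve AlgebraicCurve Fermat.Agent.JT3 Fermat.Agent.DS

local notation "GQ" => (AlgebraicClosure ℚ ≃ₐ[ℚ] AlgebraicClosure ℚ)

/-- the mod `r` cyclotomic character with values in `ℕ`: `σ ζ = ζ ^ (mzf1_cyc r σ)` for `ζ ^ r = 1` -/
def mzf1_cyc (r : ℕ) [NeZero r] (σ : GQ) : ℕ := ((dspk_cyc r σ : (ZMod r)ˣ) : ZMod r).val

theorem mzf1_cyc_spec (r : ℕ) [NeZero r] (σ : GQ) {μ : AlgebraicClosure ℚ} (hμ : μ ^ r = 1) :
    σ μ = μ ^ mzf1_cyc r σ := dspk_cyc_spec r σ hμ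

theorem mzf1_cyc_eq (r : ℕ) [Fact r.Prime] : mzf1_cyc r = mzf1k_val (dspk_cyc r) := rfl

/-- the shape of the output of (F1), spelled out -/
def mzf1_Series (r : ℕ) [NeZero r] {J : Type*} [AddCommGroup J] [DistribMulAction GQ J]
    (W : AddSubgroup J) : Prop :=
  ∃ (n : ℕ) (F : ℕ → AddSubgroup J) (eps : ℕ → Bool), F 0 = W ∧ F n = ⊥ ∧ ∀ i < n,
    F (i + 1) ≤ F i ∧ (∀ σ : GQ, ∀ x ∈ F i, σ • x ∈ F i) ∧ (F (i + 1)).relIndex (F i) = r ∧
      ∀ σ : GQ, ∀ x ∈ F i, σ • x - (if eps i then mzf1_cyc r σ • x else x) ∈ F (i + 1)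

theorem mzf1_series_iff (r : ℕ) [NeZero r] {J : Type*} [AddCommGroup J] [DistribMulAction GQ J]
    (W : AddSubgroup J) : mzf1_Series r W ↔ mzf1k_Series (mzf1_cyc r) r ⊥ W := Iff.rfl

variable {N r : ℕ} [NeZero N] [hr : Fact r.Prime]
variable {S : Finset ℕ} {W : AddSubgroup (JZero N)}

/-- the graded pieces of the Eisenstein filtration are Kolchin pairs -/
theorem mzf1_pair (hS : ∀ q : ℕ, q.Prime → q ∣ N → q ∈ S) (hW : mzf1i_Eis N r S W)
    (hSr : r ∈ S) (i : ℕ) :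
    mzf1k_Pair (dspk_cyc r) (mzf1i_fil N r S W i) (mzf1i_fil N r S W (i + 1)) := by
  haveI := hW.fin
  exact
    { le := mzf1i_fil_mono (Nat.le_succ i)
      fin := (Set.toFinite (W : Set (JZero N))).subset (mzf1i_fil_le (i + 1))
      stabZ := fun g x hx => mzf1i_fil_gal hS hW g i hx
      stabU := fun g x hx => mzf1i_fil_gal hS hW g (i + 1) hx
      tors := fun x hx => mzf1i_fil_r hx
      rel := fun g x hx => mzf1c_all hS hW hSr g hx }

/-- **(F1)** -/
theorem mzf1_main (hS : ∀ q : ℕ, q.Prime → q ∣ N → q ∈ S) (hW : mzf1i_Eis N r S W)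
    (hSr : r ∈ S) : mzf1_Series r W := by
  rw [mzf1_series_iff]
  have hser : ∀ i : ℕ, mzf1k_Series (mzf1_cyc r) r ⊥ (mzf1i_fil N r S W i) := by
    intro i
    induction i with
    | zero => rw [mzf1i_fil_zero]; exact mzf1k_Series.refl _
    | succ i ih => exact (mzf1k_series (mzf1_pair hS hW hSr i)).trans ih
  obtain ⟨n, hn⟩ := mzf1i_fil_exhaust hS hW
  rw [← hn]
  exact hser n

end Fermat.Agent.MZ
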