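/-
MAZUR project, node (F1), abstract part (helper20).  Prefix `mzf1a_`.

FROM THE FROBENIUS ELEMENTS TO ALL OF `Gal(ℚ̄/ℚ)` (weak Chebotarev).
`M` an abelian group with an action of `G_ℚ = Gal(ℚ̄/ℚ)`, `V ≤ W` stable subgroups, `r W ⊆ V`,
`G_ℚ` acts on `W` through a finite level, `χ : G_ℚ →* (ZMod r)ˣ` of finite level with
`χ(Frob_ℓ) = ℓ` for the primes `ℓ ∉ S`.  If `(φ - 1)(φ - ℓ) W ⊆ V` for every Frobenius element `φ` at
every prime `ℓ ∉ S`, then `(g - 1)(g - χ g) W ⊆ V` for EVERY `g` (`mzf1a_relMod_of_frob`), hence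
(`Kolchin.lean`) `W / V` has a composition series with constituents `1`, `χ` (`mzf1a_series_of_frob`).

Proof.  `Fermat.Agent.WC.wc_main`: on a finite normal level `g = φ ^ k`; and
`(X^k - 1)(X^k - ℓ^k)` is a multiple of `(X - 1)(X - ℓ)` in `ℤ[X]`.
-/
import Mathlib
import Fermat.Prelude.Def_GaloisRep_Residual
import Fermat.Prelude.Def_EllipticCurve_FrobeniusTrace
import Fermat.Prelude.Def_FLTPrelim_Ramification
import Fermat.Agent.WC.Final
import Fermat.Agent.MZ.F1.Kolchin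

set_option autoImplicit false
set_option linter.style.haveILetI false

open Polynomial

namespace Fermat.Agent.MZ

local notation "GQ" => (AlgebraicClosure ℚ ≃ₐ[ℚ] AlgebraicClosure ℚ)
local notation "Qbar" => AlgebraicClosure ℚ

/-! ### Polynomials in one endomorphism -/

section poly

variable {M : Type*} [AddCommGroup M]

theorem mzf1a_end_mul (f g : AddMonoid.End M) (x : M) : (f * g) x = f (g x) := rfl

theorem mzf1a_end_add (f g : AddMonoid.End M) (x : M) : (f + g) x = f x + g x := rfl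

theorem mzf1a_end_sub (f g : AddMonoid.End M) (x : M) : (f - g) x = f x - g x := rfl

theorem mzf1a_end_int (a : ℤ) (x : M) : ((a : AddMonoid.End M)) x = a • x :=
  AddMonoid.End.intCast_apply a x

theorem mzf1a_aeval_C (Φ : AddMonoid.End M) (a : ℤ) :
    aeval Φ (C a : ℤ[X]) = (a : AddMonoid.End M) := by
  rw [aeval_C, algebraMap_int_eq, eq_intCast]

/-- a subgroup stable under `Φ` is stable under every integral polynomial in `Φ` -/
theorem mzf1a_aeval_mem (Φ : AddMonoid.End M) (V : AddSubgroup M) (hV : ∀ x ∈ V, Φ x ∈ V)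
    (p : ℤ[X]) : ∀ x ∈ V, aeval Φ p x ∈ V := by
  induction p using Polynomial.induction_on with
  | C a =>
    intro x hx
    rw [mzf1a_aeval_C, mzf1a_end_int]
    exact V.zsmul_mem hx a
  | add p q hp hq =>
    intro x hx
    rw [map_add]
    exact V.add_mem (hp x hx) (hq x hx)
  | monomial n a ih =>
    intro x hx
    rw [pow_succ, ← mul_assoc, map_mul, aeval_X, mzf1a_end_mul]
    exact ih (Φ x) (hV x hx)

/-- the polynomial identity behind the passage to powers -/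
theorem mzf1a_poly_identity (ℓ : ℤ) (k : ℕ) :
    ∃ q : ℤ[X], (X ^ k - 1) * (X ^ k - C (ℓ ^ k)) = q * ((X - 1) * (X - C ℓ)) := by
  refine ⟨(∑ i ∈ Finset.range k, X ^ i) * (∑ i ∈ Finset.range k, X ^ i * C ℓ ^ (k - 1 - i)), ?_⟩
  have h1 : (∑ i ∈ Finset.range k, (X : ℤ[X]) ^ i) * (X - 1) = X ^ k - 1 := geom_sum_mul X k
  have h2 : (∑ i ∈ Finset.range k, (X : ℤ[X]) ^ i * C ℓ ^ (k - 1 - i)) * (X - C ℓ) =
      X ^ k - C ℓ ^ k := (Commute.all X (C ℓ)).geom_sum₂_mul k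
  rw [C_pow, ← h1, ← h2]
  ring

theorem mzf1a_aeval_quad (Φ : AddMonoid.End M) (a : ℤ) (k : ℕ) (x : M) :
    aeval Φ ((X ^ k - 1) * (X ^ k - C a) : ℤ[X]) x =
      (Φ ^ k) ((Φ ^ k) x) + a • x - ((Φ ^ k) x + a • (Φ ^ k) x) := by
  have : ((X ^ k - 1) * (X ^ k - C a) : ℤ[X]) = X ^ k * X ^ k - X ^ k - C a * X ^ k + C a := by
    ring
  rw [this]
  simp only [map_add, map_sub, map_mul, map_pow, aeval_X, mzf1a_aeval_C, mzf1a_end_mul,
    mzf1a_end_add, mzf1a_end_sub, mzf1a_end_int]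
  abel

/-- the relation `(Φ - 1)(Φ - ℓ) W ⊆ V` passes to the powers of `Φ` -/
theorem mzf1a_frob_pow (Φ : AddMonoid.End M) (V W : AddSubgroup M) (hV : ∀ x ∈ V, Φ x ∈ V)
    (ℓ : ℤ) (h : ∀ x ∈ W, Φ (Φ x) + ℓ • x - (Φ x + ℓ • Φ x) ∈ V) (k : ℕ) :
    ∀ x ∈ W, (Φ ^ k) ((Φ ^ k) x) + ℓ ^ k • x - ((Φ ^ k) x + ℓ ^ k • (Φ ^ k) x) ∈ V := by
  intro x hx
  obtain ⟨q, hq⟩ := mzf1a_poly_identity ℓ k
  have h1 : aeval Φ ((X - 1) * (X - C ℓ) : ℤ[X]) x = Φ (Φ x) + ℓ • x - (Φ x + ℓ • Φ x) := by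
    have := mzf1a_aeval_quad Φ ℓ 1 x
    rwa [pow_one, pow_one] at this
  have h2 := mzf1a_aeval_quad Φ (ℓ ^ k) k x
  rw [← h2, hq, map_mul, mzf1a_end_mul, h1]
  exact mzf1a_aeval_mem Φ V hV q _ (h x hx)

end poly

/-! ### Uniform finite level -/

section level

variable {M : Type*} [AddCommGroup M] [DistribMulAction GQ M]

/-- a finite set of points with open stabilisers is fixed by an open subgroup -/
theorem mzf1a_uniform_level {W : Set M} (hfin : W.Finite)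
    (h : ∀ x ∈ W, ∃ L : IntermediateField ℚ Qbar, FiniteDimensional ℚ L ∧
      ∀ σ : GQ, (∀ y ∈ L, σ y = y) → σ • x = x) :
    ∃ L : IntermediateField ℚ Qbar, FiniteDimensional ℚ L ∧
      ∀ σ : GQ, (∀ y ∈ L, σ y = y) → ∀ x ∈ W, σ • x = x := by
  induction W, hfin using Set.Finite.induction_on with
  | empty =>
    exact ⟨⊥, inferInstance, fun _ _ x hx => absurd hx (Set.notMem_empty x)⟩
  | @insert a s _ _ ih =>
    obtain ⟨L₁, hL₁, h1⟩ := h a (Set.mem_insert a s)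
    obtain ⟨L₂, hL₂, h2⟩ := ih fun x hx => h x (Set.mem_insert_of_mem a hx)
    haveI := hL₁
    haveI := hL₂
    refine ⟨L₁ ⊔ L₂, IntermediateField.finiteDimensional_sup L₁ L₂, fun σ hσ x hx => ?_⟩
    rcases Set.mem_insert_iff.mp hx with rfl | hx
    · exact h1 σ fun y hy => hσ y ((le_sup_left : L₁ ≤ L₁ ⊔ L₂) hy)
    · exact h2 σ (fun y hy => hσ y ((le_sup_right : L₂ ≤ L₁ ⊔ L₂) hy)) x hx

/-- a finite normal field containing two given finite fields -/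
theorem mzf1a_exists_normal (L₁ L₂ : IntermediateField ℚ Qbar) (h₁ : FiniteDimensional ℚ L₁)
    (h₂ : FiniteDimensional ℚ L₂) :
    ∃ L : IntermediateField ℚ Qbar, FiniteDimensional ℚ L ∧ Normal ℚ L ∧ L₁ ≤ L ∧ L₂ ≤ L := by
  haveI := h₁
  haveI := h₂
  haveI : FiniteDimensional ℚ ↥(L₁ ⊔ L₂) := IntermediateField.finiteDimensional_sup L₁ L₂
  haveI : Algebra.IsAlgebraic ℚ Qbar := AlgebraicClosure.isAlgebraic ℚ
  haveI : IsAlgClosure ℚ Qbar := ⟨inferInstance, inferInstance⟩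
  haveI : Normal ℚ Qbar := IsAlgClosure.normal ℚ Qbar
  refine ⟨IntermediateField.normalClosure ℚ ↥(L₁ ⊔ L₂) Qbar,
    normalClosure.is_finiteDimensional ℚ _ Qbar, normalClosure.normal ℚ _ Qbar, ?_, ?_⟩
  · exact le_sup_left.trans (IntermediateField.le_normalClosure _)
  · exact le_sup_right.trans (IntermediateField.le_normalClosure _)

end level

/-! ### The Chebotarev closure -/

section main

variable {r : ℕ} [hr : Fact r.Prime] {M : Type*} [AddCommGroup M] [DistribMulAction GQ M]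
  (χ : GQ →* (ZMod r)ˣ) (S : Finset ℕ)

/-- the hypothesis on the Frobenius elements: `(φ - 1)(φ - ℓ) W ⊆ V` -/
def mzf1a_FrobRel (V W : AddSubgroup M) : Prop :=
  ∀ ℓ : ℕ, ℓ.Prime → ℓ ∉ S → ∀ A : ValuationSubring Qbar, A.LiesOverPrime ℓ →
    ∀ φ : GQ, A.IsFrobeniusAt φ ℓ → ∀ x ∈ W, φ • φ • x + ℓ • x - (φ • x + ℓ • φ • x) ∈ V

variable {χ S}

/-- **Chebotarev closure**: the relation at the Frobenius elements outside `S` gives the relation
`(g - 1)(g - χ g) W ⊆ V` for all `g`. -/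
theorem mzf1a_relMod_of_frob {V W : AddSubgroup M} (hV : mzf1a_Stable GQ V)
    (hrW : ∀ x ∈ W, r • x ∈ V)
    (hlevel : ∃ L : IntermediateField ℚ Qbar, FiniteDimensional ℚ L ∧
      ∀ σ : GQ, (∀ y ∈ L, σ y = y) → ∀ x ∈ W, σ • x = x)
    (hW : mzf1a_Stable GQ W)
    (hχ : GaloisFactorsThroughFiniteLevel χ)
    (hχfrob : ∀ ℓ : ℕ, ℓ.Prime → ℓ ∉ S → ∀ A : ValuationSubring Qbar, A.LiesOverPrime ℓ →
      ∀ φ : GQ, A.IsFrobeniusAt φ ℓ → ((χ φ : (ZMod r)ˣ) : ZMod r) = (ℓ : ZMod r))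
    (hfrob : mzf1a_FrobRel S V W) : mzf1a_RelMod χ V W := by
  intro g x hx
  obtain ⟨L₁, hL₁, h1⟩ := hlevel
  obtain ⟨L₂, hL₂, h2⟩ := hχ
  obtain ⟨L, hLfd, hLn, h1L, h2L⟩ := mzf1a_exists_normal L₁ L₂ hL₁ hL₂
  haveI := hLfd
  haveI := hLn
  obtain ⟨ℓ, A, φ, k, hℓ, hℓS, hA, hφ, hk⟩ := Fermat.Agent.WC.wc_main L S g
  -- the error term `δ = g⁻¹ φ^k` fixes `L`
  have hδ : ∀ y ∈ L, (g⁻¹ * φ ^ k) y = y := by
    intro y hy
    rw [AlgEquiv.mul_apply, hk y hy]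
    show (g⁻¹ * g) y = y
    rw [inv_mul_cancel]
    rfl
  have hprod : φ ^ k = g * (g⁻¹ * φ ^ k) := (mul_inv_cancel_left g (φ ^ k)).symm
  -- `g` and `φ ^ k` agree on `W`
  have hgW : ∀ y ∈ W, (φ ^ k) • y = g • y := by
    intro y hy
    rw [hprod, mul_smul, h1 _ (fun z hz => hδ z (h1L hz)) y hy]
  -- `χ g = ℓ ^ k`
  have hχg : ((χ g : (ZMod r)ˣ) : ZMod r) = ((ℓ ^ k : ℕ) : ZMod r) := by
    have h3 : χ (g⁻¹ * φ ^ k) = 1 := h2 _ fun z hz => hδ z (h2L hz)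
    have h4 : χ (φ ^ k) = χ g := by rw [hprod, map_mul, h3, mul_one]
    rw [← h4, map_pow, Units.val_pow_eq_pow_val, hχfrob ℓ hℓ hℓS A hA φ hφ, Nat.cast_pow]
  -- the relation for `φ ^ k`
  let Φ : AddMonoid.End M := DistribMulAction.toAddMonoidEnd GQ M φ
  have hΦ : ∀ y : M, Φ y = φ • y := fun _ => rfl
  have hΦk : ∀ y : M, (Φ ^ k) y = (φ ^ k) • y := by
    intro y
    rw [← map_pow]
    rfl
  have hpow := mzf1a_frob_pow Φ V W (fun y hy => hV φ y hy) (ℓ : ℤ) (fun y hy => by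
    have := hfrob ℓ hℓ hℓS A hA φ hφ y hy
    simpa only [hΦ, natCast_zsmul] using this) k x hx
  rw [hΦk, hΦk, hgW x hx, hgW (g • x) (hW g x hx)] at hpow
  -- replace `ℓ ^ k` by `a(g)` modulo `r`
  have hcong : ∀ y ∈ W, (ℓ : ℤ) ^ k • y - (mzf1a_a χ g : ℤ) • y ∈ V := by
    intro y hy
    have h5 : ((((ℓ : ℤ) ^ k - (mzf1a_a χ g : ℤ) : ℤ)) : ZMod r) = 0 := by
      push_cast
      rw [mzf1a_a_cast χ g, hχg]
      push_cast
      ring
    obtain ⟨c, hc⟩ := (ZMod.intCast_zmod_eq_zero_iff_dvd _ r).mp h5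
    rw [← sub_smul, hc, mul_smul, natCast_zsmul]
    exact hrW _ (W.zsmul_mem hy c)
  have h6 := hcong x hx
  have h7 := hcong (g • x) (hW g x hx)
  have h8 : g • g • x + mzf1a_a χ g • x - (g • x + mzf1a_a χ g • g • x) =
      (g • g • x + (ℓ : ℤ) ^ k • x - (g • x + (ℓ : ℤ) ^ k • g • x)) -
        ((ℓ : ℤ) ^ k • x - (mzf1a_a χ g : ℤ) • x) +
          ((ℓ : ℤ) ^ k • g • x - (mzf1a_a χ g : ℤ) • g • x) := by
    rw [natCast_zsmul, natCast_zsmul]
    abel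
  rw [h8]
  exact V.add_mem (V.sub_mem hpow h6) h7

/-- **(F1), Frobenius form**: composition series with constituents `1`, `χ` from the
Eichler–Shimura type relation at the Frobenius elements outside `S`. -/
theorem mzf1a_series_of_frob {V W : AddSubgroup M} (hVW : V ≤ W) (hfin : (W : Set M).Finite)
    (hV : mzf1a_Stable GQ V) (hW : mzf1a_Stable GQ W) (hrW : ∀ x ∈ W, r • x ∈ V)
    (hlevel : ∀ x ∈ W, ∃ L : IntermediateField ℚ Qbar, FiniteDimensional ℚ L ∧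
      ∀ σ : GQ, (∀ y ∈ L, σ y = y) → σ • x = x)
    (hχ : GaloisFactorsThroughFiniteLevel χ)
    (hχfrob : ∀ ℓ : ℕ, ℓ.Prime → ℓ ∉ S → ∀ A : ValuationSubring Qbar, A.LiesOverPrime ℓ →
      ∀ φ : GQ, A.IsFrobeniusAt φ ℓ → ((χ φ : (ZMod r)ˣ) : ZMod r) = (ℓ : ZMod r))
    (hfrob : mzf1a_FrobRel S V W) : mzf1a_Series χ W V :=
  mzf1a_series_exists hVW hfin hV hW hrW
    (mzf1a_relMod_of_frob hV hrW (mzf1a_uniform_level hfin hlevel) hW hχ hχfrob hfrob)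

end main

end Fermat.Agent.MZ
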