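/-
MAZUR project, node (F1), abstract part (helper20).  Prefix `mzf1a_` (abstract; helper7's `mzf1_`, `mzf1k_`, `mzf1i_` are different files).  Mathlib only.

KOLCHIN FOR `(g - 1)(g - χ g) = 0`.  `r` a prime, `G` a group, `χ : G →* (ZMod r)ˣ`, `Q` a finite
nonzero `𝔽_r`-vector space with a linear `G`-action `ρ` such that
`(ρ g - 1)(ρ g - χ g) = 0` for every `g`.  Then `Q` contains a nonzero vector `q` which is either
fixed by `G`, or on which `G` acts through `χ` (`mzf1a_core`).

Proof.  `ker χ` acts through a finite `r`-group (`(h - 1)² = 0` gives `h ^ r = 1`), so it has a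
nonzero fixed vector (orbit counting).  The space `Q₁` of `ker χ`-fixed vectors is `G`-stable and `G`
acts on it through the abelian group `G / ker χ`.  If `G` acts trivially on `Q₁` we are done;
otherwise `y := g₀ q - q ≠ 0` for some `q ∈ Q₁`, `g₀ y = χ(g₀) y`, `χ(g₀) ≠ 1`, and for every `g` the
vector `w := g y - χ(g) y` is fixed by `g` and satisfies `(g g₀) w = χ(g₀) w`; the relation for
`g g₀` then forces `w = 0`.
-/
import Mathlib

set_option autoImplicit false
set_option linter.style.haveILetI false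

namespace Fermat.Agent.MZ

open MulAction

section core

variable {G : Type*} [Group G] {r : ℕ} [hr : Fact r.Prime]
  {Q : Type*} [AddCommGroup Q] [Module (ZMod r) Q]
  (ρ : G →* Module.End (ZMod r) Q) (χ : G →* (ZMod r)ˣ)

/-- the quadratic relation `(ρ g - 1)(ρ g - χ g) = 0`, elementwise -/
def mzf1a_Rel : Prop :=
  ∀ (g : G) (q : Q), ρ g (ρ g q) - ((1 : ZMod r) + (χ g : ZMod r)) • ρ g q + (χ g : ZMod r) • q = 0

variable {ρ χ}

theorem mzf1a_rel_apply (h : mzf1a_Rel ρ χ) (g : G) (q : Q) :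
    ρ g (ρ g q) = ((1 : ZMod r) + (χ g : ZMod r)) • ρ g q - (χ g : ZMod r) • q := by
  have := h g q
  rw [sub_add_eq_add_sub, sub_eq_zero] at this
  rw [← this]
  abel

/-- on the kernel of `χ`: `ρ h` fixes `ρ h q - q` -/
theorem mzf1a_ker_fix (h : mzf1a_Rel ρ χ) {g : G} (hg : χ g = 1) (q : Q) :
    ρ g (ρ g q - q) = ρ g q - q := by
  rw [map_sub, mzf1a_rel_apply h g q, hg, Units.val_one, add_smul]
  simp only [one_smul]
  abel

theorem mzf1a_ker_pow (h : mzf1a_Rel ρ χ) {g : G} (hg : χ g = 1) (q : Q) (k : ℕ) :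
    (ρ g ^ k) q = q + k • (ρ g q - q) := by
  induction k with
  | zero => simp
  | succ k ih =>
    rw [pow_succ', Module.End.mul_apply, ih, map_add, map_nsmul, mzf1a_ker_fix h hg, succ_nsmul]
    abel

/-- `ρ (h ^ r) = 1` for `h ∈ ker χ` -/
theorem mzf1a_ker_pow_r (h : mzf1a_Rel ρ χ) {g : G} (hg : χ g = 1) (q : Q) : ρ (g ^ r) q = q := by
  rw [map_pow, mzf1a_ker_pow h hg]
  have : (r : ℕ) • (ρ g q - q) = 0 := by
    rw [← Nat.cast_smul_eq_nsmul (ZMod r), ZMod.natCast_self, zero_smul]
  rw [this, add_zero]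

variable [Finite Q] [Nontrivial Q]

omit [Finite Q] in
theorem mzf1a_dvd_card : r ∣ Nat.card Q := by
  obtain ⟨q, hq⟩ := exists_ne (0 : Q)
  have h1 : addOrderOf q ∣ r := by
    apply addOrderOf_dvd_of_nsmul_eq_zero
    rw [← Nat.cast_smul_eq_nsmul (ZMod r), ZMod.natCast_self, zero_smul]
  have h2 : addOrderOf q = r := by
    rcases (Nat.dvd_prime hr.out).mp h1 with h | h
    · exact absurd (AddMonoid.addOrderOf_eq_one_iff.mp h) hq
    · exact h
  rw [← h2]
  exact addOrderOf_dvd_natCard q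

/-- the kernel of `χ` has a nonzero fixed vector -/
theorem mzf1a_ker_fixed (h : mzf1a_Rel ρ χ) :
    ∃ q : Q, q ≠ 0 ∧ ∀ g : G, χ g = 1 → ρ g q = q := by
  classical
  let _ : MulAction G Q := MulAction.compHom Q ρ
  have hsmul : ∀ (g : G) (q : Q), g • q = ρ g q := fun _ _ => rfl
  let P : Subgroup (Equiv.Perm Q) := Subgroup.map (MulAction.toPermHom G Q) χ.ker
  have hP : IsPGroup r P := by
    rintro ⟨σ, g, hg, rfl⟩
    refine ⟨1, Subtype.ext ?_⟩
    rw [pow_one]
    show (MulAction.toPermHom G Q g) ^ r = 1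
    rw [← map_pow]
    ext q
    show (g ^ r) • q = q
    rw [hsmul]
    exact mzf1a_ker_pow_r h (MonoidHom.mem_ker.mp hg) q
  have h0 : (0 : Q) ∈ fixedPoints P Q := by
    rintro ⟨σ, g, hg, rfl⟩
    show g • (0 : Q) = 0
    rw [hsmul, map_zero]
  obtain ⟨b, hb, hb0⟩ := hP.exists_fixed_point_of_prime_dvd_card_of_fixed_point Q
    (mzf1a_dvd_card (r := r)) h0
  refine ⟨b, fun hb' => hb0 hb'.symm, fun g hg => ?_⟩
  have := hb ⟨MulAction.toPermHom G Q g, g, MonoidHom.mem_ker.mpr hg, rfl⟩
  exact this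

/-- **Kolchin for `(g - 1)(g - χ g) = 0`**: a nonzero vector on which `G` acts through `1` or
through `χ`. -/
theorem mzf1a_core (h : mzf1a_Rel ρ χ) :
    ∃ q : Q, q ≠ 0 ∧ ((∀ g : G, ρ g q = q) ∨ (∀ g : G, ρ g q = (χ g : ZMod r) • q)) := by
  classical
  -- the space of `ker χ`-fixed vectors
  let Q₁ : Submodule (ZMod r) Q :=
    { carrier := {q | ∀ g : G, χ g = 1 → ρ g q = q}
      add_mem' := fun {a b} ha hb g hg => by rw [map_add, ha g hg, hb g hg]
      zero_mem' := fun g _ => map_zero _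
      smul_mem' := fun c a ha g hg => by rw [map_smul, ha g hg] }
  have hQ₁ : ∀ q, q ∈ Q₁ ↔ ∀ g : G, χ g = 1 → ρ g q = q := fun _ => Iff.rfl
  -- stability
  have hstab : ∀ (g : G) (q : Q), q ∈ Q₁ → ρ g q ∈ Q₁ := by
    intro g q hq k hk
    have hk' : χ (g⁻¹ * k * g) = 1 := by
      rw [map_mul, map_mul, hk, mul_one, map_inv, inv_mul_cancel]
    have h1 := hq _ hk'
    have h2 : ρ k (ρ g q) = ρ g (ρ (g⁻¹ * k * g) q) := by
      rw [← Module.End.mul_apply, ← Module.End.mul_apply, ← map_mul, ← map_mul]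
      congr 2
      group
    rw [h2, h1]
  -- commutativity on `Q₁`
  have hcomm : ∀ (g k : G) (q : Q), q ∈ Q₁ → ρ g (ρ k q) = ρ k (ρ g q) := by
    intro g k q hq
    have hc : χ (g⁻¹ * k⁻¹ * g * k) = 1 := by
      simp only [map_mul, map_inv]
      rw [mul_comm ((χ g)⁻¹) ((χ k)⁻¹), mul_assoc, mul_assoc, ← mul_assoc ((χ g)⁻¹), inv_mul_cancel,
        one_mul, inv_mul_cancel]
    have h1 := hq _ hc
    have h2 : ρ g (ρ k q) = ρ k (ρ g (ρ (g⁻¹ * k⁻¹ * g * k) q)) := by
      rw [← Module.End.mul_apply, ← Module.End.mul_apply, ← Module.End.mul_apply, ← map_mul,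
        ← map_mul, ← map_mul]
      congr 2
      group
    rw [h2, h1]
  obtain ⟨q₁, hq₁0, hq₁⟩ := mzf1a_ker_fixed h
  by_cases htriv : ∀ (g : G) (q : Q), q ∈ Q₁ → ρ g q = q
  · exact ⟨q₁, hq₁0, Or.inl fun g => htriv g q₁ hq₁⟩
  · push Not at htriv
    obtain ⟨g₀, q, hq, hne⟩ := htriv
    obtain ⟨y, hy⟩ : ∃ y : Q, y = ρ g₀ q - q := ⟨_, rfl⟩
    have hy0 : y ≠ 0 := by rw [hy]; exact sub_ne_zero.mpr hne
    have hyQ : y ∈ Q₁ := by rw [hy]; exact Q₁.sub_mem (hstab g₀ q hq) hq
    have hχ₀ : χ g₀ ≠ 1 := fun h1 => hne (hq g₀ h1)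
    have hg₀y : ρ g₀ y = (χ g₀ : ZMod r) • y := by
      rw [hy, map_sub, mzf1a_rel_apply h g₀ q, smul_sub, add_smul, one_smul]
      abel
    refine ⟨y, hy0, Or.inr fun g => ?_⟩
    by_contra hw
    obtain ⟨w, hwdef⟩ : ∃ w : Q, w = ρ g y - (χ g : ZMod r) • y := ⟨_, rfl⟩
    have hw0 : w ≠ 0 := by rw [hwdef]; exact sub_ne_zero.mpr hw
    have hwQ : w ∈ Q₁ := by
      rw [hwdef]; exact Q₁.sub_mem (hstab g y hyQ) (Q₁.smul_mem _ hyQ)
    have hgw : ρ g w = w := by
      rw [hwdef, map_sub, map_smul, mzf1a_rel_apply h g y, add_smul, one_smul]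
      abel
    have hg₀w : ρ g₀ w = (χ g₀ : ZMod r) • w := by
      rw [hwdef, map_sub, map_smul, hcomm g₀ g y hyQ, hg₀y, map_smul, smul_sub, smul_comm]
    have hgg₀w : ρ (g * g₀) w = (χ g₀ : ZMod r) • w := by
      rw [map_mul, Module.End.mul_apply, hg₀w, map_smul, hgw]
    have hrel := h (g * g₀) w
    rw [hgg₀w, map_smul, hgg₀w, smul_smul, smul_smul, ← sub_smul, ← add_smul] at hrel
    have hscal : (χ g₀ : ZMod r) * (χ g₀ : ZMod r) -
        ((1 : ZMod r) + (χ (g * g₀) : ZMod r)) * (χ g₀ : ZMod r) + (χ (g * g₀) : ZMod r) = 0 := by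
      rcases smul_eq_zero.mp hrel with h0 | h0
      · exact h0
      · exact absurd h0 hw0
    have hfac : ((χ g₀ : ZMod r) - 1) * ((χ g₀ : ZMod r) * (1 - (χ g : ZMod r))) = 0 := by
      rw [map_mul, Units.val_mul] at hscal
      linear_combination hscal
    have hχg : χ g = 1 := by
      rcases mul_eq_zero.mp hfac with h1 | h1
      · exact absurd (Units.ext (sub_eq_zero.mp h1)) hχ₀
      · rcases mul_eq_zero.mp h1 with h2 | h2
        · exact absurd h2 (Units.ne_zero _)
        · exact Units.ext (sub_eq_zero.mp h2).symm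
    apply hw
    rw [hyQ g hχg, hχg, Units.val_one, one_smul]

end core

/-! ### The relative form: subgroups `V ≤ W` of a `G`-module `M` -/

section relative

variable {G : Type*} [Group G] {r : ℕ} [hr : Fact r.Prime]

/-- the integer `a(g) ∈ [0, r)` representing `χ g` -/
def mzf1a_a (χ : G →* (ZMod r)ˣ) (g : G) : ℕ := ((χ g : ZMod r)).val

theorem mzf1a_a_cast (χ : G →* (ZMod r)ˣ) (g : G) :
    ((mzf1a_a χ g : ℕ) : ZMod r) = (χ g : ZMod r) := by
  haveI : NeZero r := ⟨hr.out.ne_zero⟩
  exact ZMod.natCast_zmod_val _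

/-- the core in `ℕ`-scalar form, for an `𝔽_r`-vector space -/
theorem mzf1a_core_nat_aux {Q : Type*} [AddCommGroup Q] [Module (ZMod r) Q] [Finite Q]
    [Nontrivial Q] (ρ : G →* AddMonoid.End Q) (χ : G →* (ZMod r)ˣ)
    (hrel : ∀ (g : G) (q : Q), ρ g (ρ g q) + mzf1a_a χ g • q = ρ g q + mzf1a_a χ g • ρ g q) :
    ∃ q : Q, q ≠ 0 ∧ ((∀ g : G, ρ g q = q) ∨ (∀ g : G, ρ g q = mzf1a_a χ g • q)) := by
  let ρ' : G →* Module.End (ZMod r) Q :=
    { toFun := fun g => AddMonoidHom.toZModLinearMap r (AddMonoidHomClass.toAddMonoidHom (ρ g))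
      map_one' := by
        refine LinearMap.ext fun q => ?_
        show ρ 1 q = _
        rw [map_one]
        rfl
      map_mul' := fun g k => by
        refine LinearMap.ext fun q => ?_
        show ρ (g * k) q = _
        rw [map_mul]
        rfl }
  have hρ' : ∀ (g : G) (q : Q), ρ' g q = ρ g q := fun _ _ => rfl
  have hsm : ∀ (g : G) (q : Q), (χ g : ZMod r) • q = mzf1a_a χ g • q := by
    intro g q
    rw [← mzf1a_a_cast χ g, Nat.cast_smul_eq_nsmul]
  have hR : mzf1a_Rel ρ' χ := by
    intro g q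
    rw [add_smul, one_smul, hsm, hsm, hρ', hρ']
    have := hrel g q
    rw [sub_add_eq_add_sub, this]
    abel
  obtain ⟨q, hq0, hq⟩ := mzf1a_core hR
  refine ⟨q, hq0, ?_⟩
  rcases hq with hq | hq
  · exact Or.inl fun g => (hρ' g q).symm.trans (hq g)
  · exact Or.inr fun g => ((hρ' g q).symm.trans (hq g)).trans (hsm g q)

/-- the core for a finite abelian group killed by `r`, in `ℕ`-scalar form -/
theorem mzf1a_core_nat {Q : Type*} [AddCommGroup Q] [Finite Q] [Nontrivial Q]
    (hrQ : ∀ q : Q, r • q = 0) (ρ : G →* AddMonoid.End Q) (χ : G →* (ZMod r)ˣ)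
    (hrel : ∀ (g : G) (q : Q), ρ g (ρ g q) + mzf1a_a χ g • q = ρ g q + mzf1a_a χ g • ρ g q) :
    ∃ q : Q, q ≠ 0 ∧ ((∀ g : G, ρ g q = q) ∨ (∀ g : G, ρ g q = mzf1a_a χ g • q)) :=
  @mzf1a_core_nat_aux G _ r hr Q _ (AddCommGroup.zmodModule hrQ) _ _ ρ χ hrel

variable {M : Type*} [AddCommGroup M] [DistribMulAction G M]

/-- `W` is stable under `G` -/
def mzf1a_Stable (G : Type*) [Group G] {M : Type*} [AddCommGroup M] [DistribMulAction G M]
    (W : AddSubgroup M) : Prop :=
  ∀ (g : G), ∀ x ∈ W, g • x ∈ W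

variable (χ : G →* (ZMod r)ˣ)

/-- the relation `(g - 1)(g - χ g) W ⊆ V` -/
def mzf1a_RelMod (V W : AddSubgroup M) : Prop :=
  ∀ (g : G), ∀ x ∈ W, g • g • x + mzf1a_a χ g • x - (g • x + mzf1a_a χ g • g • x) ∈ V

variable {χ}

/-- **a stable line in `W / V`** on which `G` acts through `1` or through `χ` -/
theorem mzf1a_exists_line {V W : AddSubgroup M} (hfin : (W : Set M).Finite)
    (hV : mzf1a_Stable G V) (hW : mzf1a_Stable G W) (hrW : ∀ x ∈ W, r • x ∈ V)
    (hrel : mzf1a_RelMod χ V W) (hne : ¬ W ≤ V) :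
    ∃ x ∈ W, x ∉ V ∧ ((∀ g : G, g • x - x ∈ V) ∨ (∀ g : G, g • x - mzf1a_a χ g • x ∈ V)) := by
  classical
  let V' : AddSubgroup W := V.addSubgroupOf W
  have hrQ : ∀ q : ↥W ⧸ V', r • q = 0 := by
    intro q
    induction q using QuotientAddGroup.induction_on with
    | H x =>
      rw [← QuotientAddGroup.mk_nsmul, QuotientAddGroup.eq_zero_iff]
      exact hrW x x.2
  haveI : Finite W := hfin.to_subtype
  haveI : Nontrivial (↥W ⧸ V') := by
    rw [SetLike.not_le_iff_exists] at hne
    obtain ⟨x, hxW, hxV⟩ := hne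
    refine ⟨⟨QuotientAddGroup.mk ⟨x, hxW⟩, 0, fun h => hxV ?_⟩⟩
    rw [QuotientAddGroup.eq_zero_iff] at h
    exact h
  -- the action on `W`
  let f : G → (↥W →+ ↥W) := fun g =>
    ((DistribSMul.toAddMonoidHom M g).comp W.subtype).codRestrict W (fun x => hW g x x.2)
  have hf : ∀ g, V' ≤ V'.comap (f g) := fun g x hx => hV g x hx
  let F : G → ((↥W ⧸ V') →+ (↥W ⧸ V')) := fun g => QuotientAddGroup.map V' V' (f g) (hf g)
  have hF : ∀ (g : G) (x : W), F g (QuotientAddGroup.mk x) =
      QuotientAddGroup.mk ⟨g • (x : M), hW g x x.2⟩ := fun g x => rfl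
  let ρ : G →* AddMonoid.End (↥W ⧸ V') :=
    { toFun := fun g => F g
      map_one' := by
        refine AddMonoidHom.ext fun q => ?_
        induction q using QuotientAddGroup.induction_on with
        | H x =>
          show F 1 (QuotientAddGroup.mk x) = QuotientAddGroup.mk x
          rw [hF]
          exact congrArg _ (Subtype.ext (one_smul G (x : M)))
      map_mul' := fun g k => by
        refine AddMonoidHom.ext fun q => ?_
        induction q using QuotientAddGroup.induction_on with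
        | H x =>
          show F (g * k) (QuotientAddGroup.mk x) = F g (F k (QuotientAddGroup.mk x))
          rw [hF, hF, hF]
          exact congrArg _ (Subtype.ext (mul_smul g k (x : M))) }
  have hρ : ∀ (g : G) (x : W), ρ g (QuotientAddGroup.mk x) =
      QuotientAddGroup.mk ⟨g • (x : M), hW g x x.2⟩ := fun g x => rfl
  have hR : ∀ (g : G) (q : ↥W ⧸ V'),
      ρ g (ρ g q) + mzf1a_a χ g • q = ρ g q + mzf1a_a χ g • ρ g q := by
    intro g q
    induction q using QuotientAddGroup.induction_on with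
    | H x =>
      rw [hρ, hρ, ← QuotientAddGroup.mk_nsmul, ← QuotientAddGroup.mk_nsmul,
        ← QuotientAddGroup.mk_add, ← QuotientAddGroup.mk_add, QuotientAddGroup.eq_iff_sub_mem]
      exact hrel g x x.2
  obtain ⟨q, hq0, hq⟩ := mzf1a_core_nat hrQ ρ χ hR
  induction q using QuotientAddGroup.induction_on with
  | H x =>
    refine ⟨x, x.2, fun hxV => hq0 ?_, ?_⟩
    · rw [QuotientAddGroup.eq_zero_iff]
      exact hxV
    · rcases hq with hq | hq
      · left
        intro g
        have h1 := hq g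
        rw [hρ, QuotientAddGroup.eq_iff_sub_mem] at h1
        exact h1
      · right
        intro g
        have h1 := hq g
        rw [hρ, ← QuotientAddGroup.mk_nsmul, QuotientAddGroup.eq_iff_sub_mem] at h1
        exact h1

/-! ### Composition series with constituents `1` and `χ` -/

/-- the index of `V` in `V + ℤ x` is `r` if `x ∉ V`, `r x ∈ V` -/
theorem mzf1a_relIndex_line {V : AddSubgroup M} {x : M} (hx : x ∉ V) (hrx : r • x ∈ V) :
    V.relIndex (V ⊔ AddSubgroup.zmultiples x) = r := by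
  have h := AddSubgroup.relIndex_ker (QuotientAddGroup.mk' V) (K := V ⊔ AddSubgroup.zmultiples x)
  rw [QuotientAddGroup.ker_mk'] at h
  rw [h, AddSubgroup.map_sup, AddMonoidHom.map_zmultiples]
  have h1 : AddSubgroup.map (QuotientAddGroup.mk' V) V = ⊥ := QuotientAddGroup.map_mk'_self V
  rw [h1, bot_sup_eq, Nat.card_zmultiples]
  apply addOrderOf_eq_prime
  · rw [QuotientAddGroup.mk'_apply, ← QuotientAddGroup.mk_nsmul]
    exact (QuotientAddGroup.eq_zero_iff _).mpr hrx
  · rw [QuotientAddGroup.mk'_apply]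
    exact fun h0 => hx ((QuotientAddGroup.eq_zero_iff x).mp h0)

variable (χ)

/-- `W = F 0 ≥ F 1 ≥ ... ≥ F n = V`, all `F i` stable, successive quotients of order `r` on which `G`
acts through `1` (`ε i = false`) or through `χ` (`ε i = true`). -/
def mzf1a_IsSeries (W V : AddSubgroup M) (n : ℕ) (F : ℕ → AddSubgroup M) (ε : ℕ → Bool) : Prop :=
  F 0 = W ∧ F n = V ∧ ∀ i < n,
    F (i + 1) ≤ F i ∧ mzf1a_Stable G (F (i + 1)) ∧ (F (i + 1)).relIndex (F i) = r ∧
    ∀ g : G, ∀ x ∈ F i, g • x - (if ε i then mzf1a_a χ g • x else x) ∈ F (i + 1)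

/-- existence of a series -/
def mzf1a_Series (W V : AddSubgroup M) : Prop :=
  ∃ (n : ℕ) (F : ℕ → AddSubgroup M) (ε : ℕ → Bool), mzf1a_IsSeries χ W V n F ε

variable {χ}

theorem mzf1a_series_refl (W : AddSubgroup M) : mzf1a_Series χ W W :=
  ⟨0, fun _ => W, fun _ => false, rfl, rfl, fun i hi => absurd hi (Nat.not_lt_zero i)⟩

/-- extending a series by one step at the bottom -/
theorem mzf1a_series_snoc {W U V : AddSubgroup M} (h : mzf1a_Series χ W U) (hVU : V ≤ U)
    (hV : mzf1a_Stable G V) (hidx : V.relIndex U = r) (e : Bool)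
    (hact : ∀ g : G, ∀ x ∈ U, g • x - (if e then mzf1a_a χ g • x else x) ∈ V) :
    mzf1a_Series χ W V := by
  obtain ⟨n, F, ε, h0, hn, hstep⟩ := h
  refine ⟨n + 1, fun i => if i ≤ n then F i else V, fun i => if i < n then ε i else e, ?_, ?_, ?_⟩
  · show (if 0 ≤ n then F 0 else V) = W
    rw [if_pos (Nat.zero_le n), h0]
  · show (if n + 1 ≤ n then F (n + 1) else V) = V
    rw [if_neg (Nat.not_succ_le_self n)]
  · intro i hi
    show (if i + 1 ≤ n then F (i + 1) else V) ≤ (if i ≤ n then F i else V) ∧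
      mzf1a_Stable G (if i + 1 ≤ n then F (i + 1) else V) ∧
      (if i + 1 ≤ n then F (i + 1) else V).relIndex (if i ≤ n then F i else V) = r ∧
      ∀ g : G, ∀ x ∈ (if i ≤ n then F i else V),
        g • x - (if (if i < n then ε i else e) = true then mzf1a_a χ g • x else x) ∈
          (if i + 1 ≤ n then F (i + 1) else V)
    rcases Nat.lt_or_ge i n with hlt | hge
    · rw [if_pos (Nat.succ_le_of_lt hlt), if_pos hlt.le, if_pos hlt]
      exact hstep i hlt
    · have hin : i = n := le_antisymm (Nat.lt_succ_iff.mp hi) hge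
      subst hin
      rw [if_neg (Nat.not_succ_le_self i), if_pos le_rfl, if_neg (lt_irrefl i), hn]
      exact ⟨hVU, hV, hidx, hact⟩

/-- concatenation of series -/
theorem mzf1a_series_trans {W U V : AddSubgroup M} (h₁ : mzf1a_Series χ W U)
    (h₂ : mzf1a_Series χ U V) : mzf1a_Series χ W V := by
  obtain ⟨m, F, ε, h0, hm, hstep⟩ := h₂
  induction m generalizing V with
  | zero =>
    rw [← hm, h0]
    exact h₁
  | succ m ih =>
    have h3 : mzf1a_Series χ W (F m) :=
      ih rfl (fun i hi => hstep i (Nat.lt_succ_of_lt hi))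
    obtain ⟨hle, hst, hidx, hact⟩ := hstep m (Nat.lt_succ_self m)
    rw [hm] at hle hst hidx hact
    exact mzf1a_series_snoc h3 hle hst hidx (ε m) hact

/-- the cardinalities along a series: `card W = r ^ n * card V` -/
theorem mzf1a_isSeries_card {W V : AddSubgroup M} {n : ℕ} {F : ℕ → AddSubgroup M} {ε : ℕ → Bool}
    (h : mzf1a_IsSeries χ W V n F ε) : Nat.card W = r ^ n * Nat.card V := by
  obtain ⟨h0, hn, hstep⟩ := h
  have key : ∀ i ≤ n, Nat.card (F 0) = r ^ i * Nat.card (F i) := by
    intro i hi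
    induction i with
    | zero => rw [pow_zero, one_mul]
    | succ i ih =>
      obtain ⟨hle, -, hidx, -⟩ := hstep i hi
      have hmul := AddSubgroup.relIndex_mul_relIndex (⊥ : AddSubgroup M) (F (i + 1)) (F i) bot_le hle
      rw [AddSubgroup.relIndex_bot_left, AddSubgroup.relIndex_bot_left, hidx] at hmul
      rw [ih (Nat.le_of_succ_le hi), ← hmul, pow_succ]
      ring
  rw [← h0, ← hn]
  exact key n le_rfl

/-- **(F1), abstract form**: `V ≤ W` stable subgroups of a `G`-module, `W` finite, `r W ⊆ V`,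
`(g - 1)(g - χ g) W ⊆ V` for all `g`: there is a stable filtration from `W` down to `V` with
successive quotients of order `r` on which `G` acts through `1` or `χ`. -/
theorem mzf1a_series_exists {V W : AddSubgroup M} (hVW : V ≤ W) (hfin : (W : Set M).Finite)
    (hV : mzf1a_Stable G V) (hW : mzf1a_Stable G W) (hrW : ∀ x ∈ W, r • x ∈ V)
    (hrel : mzf1a_RelMod χ V W) : mzf1a_Series χ W V := by
  classical
  haveI : Finite W := hfin.to_subtype
  -- induction on `card W - card V`
  obtain ⟨k, hk⟩ : ∃ k : ℕ, Nat.card W - Nat.card V = k := ⟨_, rfl⟩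
  induction k using Nat.strong_induction_on generalizing V with
  | _ k ih =>
    by_cases hWV : W ≤ V
    · have : V = W := le_antisymm hVW hWV
      subst this
      exact mzf1a_series_refl V
    · obtain ⟨x, hxW, hxV, hx⟩ := mzf1a_exists_line hfin hV hW hrW hrel hWV
      set U : AddSubgroup M := V ⊔ AddSubgroup.zmultiples x with hU
      have hVU : V ≤ U := le_sup_left
      have hxU : x ∈ U := (le_sup_right : AddSubgroup.zmultiples x ≤ U)
        (AddSubgroup.mem_zmultiples x)
      have hUW : U ≤ W := sup_le hVW (by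
        rw [AddSubgroup.zmultiples_le]; exact hxW)
      -- the twist
      obtain ⟨e, he⟩ : ∃ e : Bool, ∀ g : G, g • x - (if e then mzf1a_a χ g • x else x) ∈ V := by
        rcases hx with hx | hx
        · exact ⟨false, fun g => by simpa using hx g⟩
        · exact ⟨true, fun g => by simpa using hx g⟩
      have hUmem : ∀ u ∈ U, ∃ v ∈ V, ∃ m : ℤ, u = v + m • x := by
        intro u hu
        obtain ⟨v, hv, z, hz, rfl⟩ := AddSubgroup.mem_sup.mp hu
        obtain ⟨m, rfl⟩ := AddSubgroup.mem_zmultiples_iff.mp hz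
        exact ⟨v, hv, m, rfl⟩
      have htwV : ∀ (g : G), ∀ v ∈ V, (if e then mzf1a_a χ g • v else v) ∈ V := by
        intro g v hv
        split_ifs
        · exact V.nsmul_mem hv _
        · exact hv
      have hact : ∀ g : G, ∀ u ∈ U, g • u - (if e then mzf1a_a χ g • u else u) ∈ V := by
        intro g u hu
        obtain ⟨v, hv, m, rfl⟩ := hUmem u hu
        have h1 : g • (v + m • x) - (if e then mzf1a_a χ g • (v + m • x) else v + m • x) =
            (g • v - (if e then mzf1a_a χ g • v else v)) +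
              m • (g • x - (if e then mzf1a_a χ g • x else x)) := by
          rw [smul_add, smul_comm g m x]
          split_ifs
          · rw [smul_add, smul_sub, smul_comm (mzf1a_a χ g) m x]
            abel
          · rw [smul_sub]
            abel
        rw [h1]
        exact V.add_mem (V.sub_mem (hV g v hv) (htwV g v hv)) (V.zsmul_mem (he g) m)
      have hUst : mzf1a_Stable G U := by
        intro g u hu
        have h1 := hact g u hu
        have h2 : (if e then mzf1a_a χ g • u else u) ∈ U := by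
          split_ifs
          · exact U.nsmul_mem hu _
          · exact hu
        have h3 : g • u = (g • u - (if e then mzf1a_a χ g • u else u)) +
            (if e then mzf1a_a χ g • u else u) := by abel
        rw [h3]
        exact U.add_mem (hVU h1) h2
      haveI : Finite U := (hfin.subset hUW).to_subtype
      haveI : Finite V := (hfin.subset hVW).to_subtype
      have hcardVU : Nat.card V < Nat.card U := by
        have hidx : V.relIndex U = r := mzf1a_relIndex_line hxV (hrW x hxW)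
        have hmul := AddSubgroup.relIndex_mul_relIndex (⊥ : AddSubgroup M) V U bot_le hVU
        rw [AddSubgroup.relIndex_bot_left, AddSubgroup.relIndex_bot_left, hidx] at hmul
        rw [← hmul]
        have hpos : 0 < Nat.card V := Nat.card_pos
        have h2 := hr.out.two_le
        nlinarith
      have hcardUW : Nat.card U ≤ Nat.card W := Nat.card_mono hfin hUW
      have hser : mzf1a_Series χ W U := by
        refine ih (Nat.card W - Nat.card U) ?_ hUW hUst (fun y hy => hVU (hrW y hy))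
          (fun g y hy => hVU (hrel g y hy)) rfl
        rw [← hk]
        omega
      exact mzf1a_series_snoc hser hVU hV (mzf1a_relIndex_line hxV (hrW x hxW)) e hact

end relative

end Fermat.Agent.MZ
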